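import Mathlib
import Fermat.Prelude.Def_FLTPrelim_Modularity

/-!
# A3: raising the level `Γ₁(N) ⊇ Γ₁(M)` for `N ∣ M`

A cusp form (resp. modular form) on `Γ₁(N)` is a cusp form (resp. modular form) on `Γ₁(M)` for every
multiple `M` of `N`, with the same underlying function (hence the same `q`-expansion).
-/

set_option autoImplicit false

open UpperHalfPlane ModularForm CongruenceSubgroup
open scoped Manifold MatrixGroups

namespace Fermat.Agent.S48.A.Conj.Level

/-- restriction of a cusp form to a smaller group -/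
def cuspFormOfLE {Γ Γ' : Subgroup (GL (Fin 2) ℝ)} {k : ℤ} (h : Γ' ≤ Γ) (f : CuspForm Γ k) :
    CuspForm Γ' k where
  toFun := f
  slash_action_eq' γ hγ := f.slash_action_eq' γ (h hγ)
  holo' := f.holo'
  zero_at_cusps' hc := f.zero_at_cusps' (hc.mono h)

/-- restriction of a modular form to a smaller group -/
def modularFormOfLE {Γ Γ' : Subgroup (GL (Fin 2) ℝ)} {k : ℤ} (h : Γ' ≤ Γ) (f : ModularForm Γ k) :
    ModularForm Γ' k where
  toFun := f
  slash_action_eq' γ hγ := f.slash_action_eq' γ (h hγ)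
  holo' := f.holo'
  bdd_at_cusps' hc := f.bdd_at_cusps' (hc.mono h)

@[simp] theorem coe_cuspFormOfLE {Γ Γ' : Subgroup (GL (Fin 2) ℝ)} {k : ℤ} (h : Γ' ≤ Γ)
    (f : CuspForm Γ k) : (⇑(cuspFormOfLE h f) : ℍ → ℂ) = ⇑f := rfl

@[simp] theorem coe_modularFormOfLE {Γ Γ' : Subgroup (GL (Fin 2) ℝ)} {k : ℤ} (h : Γ' ≤ Γ)
    (f : ModularForm Γ k) : (⇑(modularFormOfLE h f) : ℍ → ℂ) = ⇑f := rfl

theorem Gamma1_le_of_dvd {N M : ℕ} (h : N ∣ M) : Gamma1 M ≤ Gamma1 N := by
  intro A hA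
  rw [Gamma1_mem] at hA ⊢
  obtain ⟨h00, h11, h10⟩ := hA
  have key : ∀ x y : ℤ, ((x : ZMod M) = (y : ZMod M)) → ((x : ZMod N) = (y : ZMod N)) := by
    intro x y hxy
    rw [ZMod.intCast_eq_intCast_iff_dvd_sub] at hxy ⊢
    exact dvd_trans (Int.natCast_dvd_natCast.mpr h) hxy
  refine ⟨?_, ?_, ?_⟩
  · have := key (A 0 0) 1 (by simpa using h00)
    simpa using this
  · have := key (A 1 1) 1 (by simpa using h11)
    simpa using this
  · have := key (A 1 0) 0 (by simpa using h10)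
    simpa using this

theorem Gamma1_GL_le_of_dvd {N M : ℕ} (h : N ∣ M) :
    (Gamma1 M : Subgroup (GL (Fin 2) ℝ)) ≤ (Gamma1 N : Subgroup (GL (Fin 2) ℝ)) :=
  Subgroup.map_mono (Gamma1_le_of_dvd h)

/-- level raising for weight `k` cusp forms on `Γ₁` -/
def cuspFormRaise {N M : ℕ} (h : N ∣ M) {k : ℤ} (f : CuspForm (Gamma1 N) k) :
    CuspForm (Gamma1 M) k := cuspFormOfLE (Gamma1_GL_le_of_dvd h) f

/-- level raising for weight `k` modular forms on `Γ₁` -/
def modularFormRaise {N M : ℕ} (h : N ∣ M) {k : ℤ} (f : ModularForm (Gamma1 N) k) :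
    ModularForm (Gamma1 M) k := modularFormOfLE (Gamma1_GL_le_of_dvd h) f

theorem qCoeff_cuspFormRaise {N M : ℕ} (h : N ∣ M) {k : ℤ} (f : CuspForm (Gamma1 N) k) (n : ℕ) :
    ModularFormClass.qCoeff (cuspFormRaise h f) n = ModularFormClass.qCoeff f n := rfl

theorem qCoeff_modularFormRaise {N M : ℕ} (h : N ∣ M) {k : ℤ} (f : ModularForm (Gamma1 N) k)
    (n : ℕ) :
    ModularFormClass.qCoeff (modularFormRaise h f) n = ModularFormClass.qCoeff f n := rfl

theorem modularFormRaise_ne_zero {N M : ℕ} (h : N ∣ M) {k : ℤ} {f : ModularForm (Gamma1 N) k}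
    (hf : f ≠ 0) : modularFormRaise h f ≠ 0 := by
  intro h0
  apply hf
  ext τ
  have : (modularFormRaise h f) τ = (0 : ModularForm (Gamma1 M) k) τ := by rw [h0]
  exact this

end Fermat.Agent.S48.A.Conj.Level
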