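import Mathlib
import Fermat.Agent.S48.A.Conj.Removable

/-!
# A3, route E: a meromorphic quotient with holomorphic `m`-th power is holomorphic

If `g ^ m = h * e ^ m` (`m ≥ 1`) on an open preconnected set `U` with `g`, `e`, `h` analytic and `e`
not identically zero, then `g / e` extends to an analytic function on `U`.  We also give the version
on the upper half plane with `MDifferentiable` functions.
-/

set_option autoImplicit false

open Filter Topology UpperHalfPlane
open scoped Manifold

namespace Fermat.Agent.S48.A.Conj.PowRemovable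

open Fermat.Agent.S48.A.Conj.Removable

theorem exists_analytic_quotient_pow {U : Set ℂ} (hU : IsOpen U) (hUc : IsPreconnected U)
    {m : ℕ} (hm : 0 < m)
    {g e h : ℂ → ℂ} (hg : AnalyticOnNhd ℂ g U) (he : AnalyticOnNhd ℂ e U)
    (hh : AnalyticOnNhd ℂ h U) (he0 : ∃ z ∈ U, e z ≠ 0)
    (hpow : ∀ z ∈ U, g z ^ m = h z * e z ^ m) :
    ∃ ψ : ℂ → ℂ, AnalyticOnNhd ℂ ψ U ∧ ∀ z ∈ U, ψ z * e z = g z := by
  set q : ℂ → ℂ := g / e with hq
  have hqm : MeromorphicOn q U := fun z hz =>
    (hg z hz).meromorphicAt.div (he z hz).meromorphicAt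
  -- the order of `q` is non-negative everywhere on `U`
  have hord : ∀ z ∈ U, 0 ≤ meromorphicOrderAt q z := by
    intro z hz
    have hne := eventually_ne_zero hUc he he0 hz
    have hUz : ∀ᶠ w in 𝓝[≠] z, w ∈ U :=
      eventually_nhdsWithin_of_eventually_nhds (hU.mem_nhds hz)
    have hqq : (q ^ m) =ᶠ[𝓝[≠] z] h := by
      filter_upwards [hne, hUz] with w hw hwU
      have h1 := hpow w hwU
      simp only [hq, Pi.pow_apply, Pi.div_apply]
      rw [div_pow, h1, mul_div_assoc, div_self (pow_ne_zero m hw), mul_one]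
    have h2 : meromorphicOrderAt (q ^ m) z = meromorphicOrderAt h z :=
      meromorphicOrderAt_congr hqq
    have h3 : 0 ≤ meromorphicOrderAt (q ^ m) z := by
      rw [h2]; exact (hh z hz).meromorphicOrderAt_nonneg
    rw [meromorphicOrderAt_pow (hqm z hz)] at h3
    cases hn : meromorphicOrderAt q z with
    | top => exact le_top
    | coe n =>
      rw [hn] at h3
      have h4 : (0 : WithTop ℤ) ≤ (((m : ℤ) * n : ℤ) : WithTop ℤ) := by
        simpa using h3
      have h5 : (0 : ℤ) ≤ (m : ℤ) * n := by exact_mod_cast h4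
      have hm' : (0 : ℤ) < (m : ℤ) := by exact_mod_cast hm
      have h6 : (0 : ℤ) ≤ n := nonneg_of_mul_nonneg_right h5 hm'
      exact_mod_cast h6
  refine ⟨toMeromorphicNFOn q U, ?_, ?_⟩
  · intro z hz
    refine ((meromorphicNFOn_toMeromorphicNFOn q U) hz).meromorphicOrderAt_nonneg_iff_analyticAt.mp
      ?_
    rw [meromorphicOrderAt_toMeromorphicNFOn hqm hz]
    exact hord z hz
  · intro z hz
    have hψ : AnalyticAt ℂ (toMeromorphicNFOn q U) z := by
      refine ((meromorphicNFOn_toMeromorphicNFOn q U)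
        hz).meromorphicOrderAt_nonneg_iff_analyticAt.mp ?_
      rw [meromorphicOrderAt_toMeromorphicNFOn hqm hz]
      exact hord z hz
    have hne := eventually_ne_zero hUc he he0 hz
    have hev : (fun w => toMeromorphicNFOn q U w * e w) =ᶠ[𝓝[≠] z] g := by
      filter_upwards [hne, hqm.toMeromorphicNFOn_eq_self_on_nhdsNE hz] with w hw hw2
      rw [hw2]
      simp only [hq, Pi.div_apply]
      field_simp
    have hc1 : ContinuousAt (fun w => toMeromorphicNFOn q U w * e w) z :=
      (hψ.continuousAt).mul (he z hz).continuousAt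
    have hc2 : ContinuousAt g z := (hg z hz).continuousAt
    exact ((ContinuousAt.eventuallyEq_nhds_iff_eventuallyEq_nhdsNE hc1 hc2).mp hev).eq_of_nhds

/-- Upper half plane version: if `G ^ m = H * E ^ m` with `G`, `E`, `H` holomorphic on `ℍ` and
`E` not identically zero, then there is a holomorphic `ψ` on `ℍ` with `ψ * E = G`. -/
theorem exists_mdiff_quotient_pow {m : ℕ} (hm : 0 < m) {G E H : ℍ → ℂ} (hG : MDiff G)
    (hE : MDiff E) (hH : MDiff H)
    (hE0 : ∃ τ, E τ ≠ 0) (hpow : ∀ τ, G τ ^ m = H τ * E τ ^ m) :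
    ∃ ψ : ℍ → ℂ, MDiff ψ ∧ ∀ τ, ψ τ * E τ = G τ := by
  have hU : IsOpen {z : ℂ | 0 < z.im} := isOpen_upperHalfPlaneSet
  have hUc : IsPreconnected {z : ℂ | 0 < z.im} :=
    (Complex.isConnected_of_upperHalfPlane subset_rfl (by grind)).isPreconnected
  have hg := (UpperHalfPlane.mdifferentiable_iff.mp hG).analyticOnNhd hU
  have he := (UpperHalfPlane.mdifferentiable_iff.mp hE).analyticOnNhd hU
  have hh := (UpperHalfPlane.mdifferentiable_iff.mp hH).analyticOnNhd hU
  have he0 : ∃ z ∈ {z : ℂ | 0 < z.im}, (E ∘ ofComplex) z ≠ 0 := by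
    obtain ⟨τ, hτ⟩ := hE0
    refine ⟨(τ : ℂ), τ.2, ?_⟩
    rw [Function.comp_apply, ofComplex_apply]
    exact hτ
  have hpow' : ∀ z ∈ {z : ℂ | 0 < z.im},
      (G ∘ ofComplex) z ^ m = (H ∘ ofComplex) z * (E ∘ ofComplex) z ^ m := by
    intro z _
    exact hpow (ofComplex z)
  obtain ⟨ψ₀, hψ₀, hψE⟩ := exists_analytic_quotient_pow hU hUc hm hg he hh he0 hpow'
  refine ⟨fun τ => ψ₀ (τ : ℂ), ?_, ?_⟩
  · rw [UpperHalfPlane.mdifferentiable_iff]
    refine hψ₀.differentiableOn.congr ?_
    intro z hz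
    have hz' : 0 < z.im := hz
    simp only [Function.comp_apply, ofComplex_apply_of_im_pos hz', coe_mk]
  · intro τ
    have := hψE (τ : ℂ) τ.2
    simpa only [Function.comp_apply, ofComplex_apply] using this

end Fermat.Agent.S48.A.Conj.PowRemovable
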