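import Mathlib
import Fermat.Agent.S48.A.Conj.PowRemovable

/-!
# A3, route E: dividing a cusp form by a modular form, `m`-th power version

Let `G` be a cusp form of weight `k + kE`, `E` a nonzero modular form of weight `kE` and `H` a cusp
form of weight `m * k` (`m ≥ 1`) for the same group `Γ`, such that `G ^ m = H * E ^ m`.  Then `G / E`
is a cusp form of weight `k` for `Γ`, whose `m`-th power is `H`.
-/

set_option autoImplicit false

open Filter Topology UpperHalfPlane ModularForm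
open scoped Manifold MatrixGroups

namespace Fermat.Agent.S48.A.Conj.PowDivide

open Fermat.Agent.S48.A.Conj.PowRemovable

/-- If the `m`-th power of a function tends to zero then so does the function. -/
theorem tendsto_zero_of_pow {α : Type*} {l : Filter α} {f : α → ℂ} {m : ℕ}
    (h : Tendsto (fun x => f x ^ m) l (𝓝 0)) : Tendsto f l (𝓝 0) := by
  rw [Metric.tendsto_nhds] at h ⊢
  intro ε hε
  have h1 := h (ε ^ m) (pow_pos hε m)
  filter_upwards [h1] with x hx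
  rw [dist_zero_right] at hx ⊢
  rw [norm_pow] at hx
  exact lt_of_pow_lt_pow_left₀ m hε.le hx

theorem mdiff_pow {F : ℍ → ℂ} (hF : MDiff F) (n : ℕ) : MDiff (F ^ n) := by
  induction n with
  | zero =>
    rw [pow_zero]
    exact mdifferentiable_const
  | succ n ih =>
    rw [pow_succ]
    exact ih.mul hF

/-- the slash action on an `m`-th power -/
theorem pow_slash (k : ℤ) (m : ℕ) (g : GL (Fin 2) ℝ) (F : ℍ → ℂ) (τ : ℍ) :
    ((F ∣[k] g) τ) ^ m =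
      ((F ^ m) ∣[(m : ℤ) * k] g) τ * ((|g.det.val| : ℝ) : ℂ) ^ (1 - (m : ℤ)) := by
  have hdet : ((|g.det.val| : ℝ) : ℂ) ≠ 0 := by
    exact_mod_cast abs_ne_zero.mpr (Matrix.GeneralLinearGroup.det_ne_zero g)
  have hden : denom g τ ≠ 0 := denom_ne_zero g τ
  rw [ModularForm.slash_apply, ModularForm.slash_apply, Pi.pow_apply, map_pow, mul_pow, mul_pow,
    ← zpow_natCast (((|g.det.val| : ℝ) : ℂ) ^ (k - 1)) m, ← zpow_mul,
    ← zpow_natCast (denom g τ ^ (-k)) m, ← zpow_mul]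
  have h1 : ((|g.det.val| : ℝ) : ℂ) ^ ((k - 1) * (m : ℤ)) =
      ((|g.det.val| : ℝ) : ℂ) ^ ((m : ℤ) * k - 1) * ((|g.det.val| : ℝ) : ℂ) ^ (1 - (m : ℤ)) := by
    rw [← zpow_add₀ hdet]
    congr 1
    ring
  have h2 : denom g τ ^ (-k * (m : ℤ)) = denom g τ ^ (-((m : ℤ) * k)) := by
    congr 1
    ring
  rw [h1, h2]
  ring

theorem exists_cuspForm_quotient_pow {Γ : Subgroup (GL (Fin 2) ℝ)} [Γ.HasDetPlusMinusOne]
    {k kE kG kH : ℤ} {m : ℕ} (hm : 0 < m) (hkG : kG = k + kE) (hkH : kH = (m : ℤ) * k)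
    (G : CuspForm Γ kG) (E : ModularForm Γ kE) (H : CuspForm Γ kH) (hE : E ≠ 0)
    (hpow : ∀ τ, G τ ^ m = H τ * E τ ^ m) :
    ∃ ψ : CuspForm Γ k, (∀ τ, ψ τ * E τ = G τ) ∧ ∀ τ, ψ τ ^ m = H τ := by
  subst hkG hkH
  have hE0 : ∃ τ, E τ ≠ 0 := by
    by_contra hcon
    apply hE
    ext τ
    by_contra h2
    exact hcon ⟨τ, h2⟩
  have hEfun : (⇑E : ℍ → ℂ) ≠ 0 := by
    obtain ⟨τ, hτ⟩ := hE0
    intro h0
    exact hτ (by rw [h0]; rfl)
  have hGh : MDiff (⇑G : ℍ → ℂ) := G.holo'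
  have hEh : MDiff (⇑E : ℍ → ℂ) := E.holo'
  have hHh : MDiff (⇑H : ℍ → ℂ) := H.holo'
  obtain ⟨ψ, hψ, hψE⟩ := exists_mdiff_quotient_pow hm hGh hEh hHh hE0 hpow
  have hmulfun : ψ * ⇑E = ⇑G := funext hψE
  have hEm : MDiff ((⇑E : ℍ → ℂ) ^ m) := mdiff_pow hEh m
  have hEmfun : ((⇑E : ℍ → ℂ) ^ m) ≠ 0 := by
    obtain ⟨τ, hτ⟩ := hE0
    intro h0
    have h1 : ((⇑E : ℍ → ℂ) ^ m) τ = 0 := by rw [h0]; rfl
    rw [Pi.pow_apply] at h1
    exact hτ (pow_eq_zero_iff (Nat.pos_iff_ne_zero.mp hm) |>.mp h1)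
  -- ψ ^ m = H
  have hψm : ψ ^ m = ⇑H := by
    have h1 : (ψ ^ m - ⇑H) * ((⇑E : ℍ → ℂ) ^ m) = 0 := by
      funext τ
      have h2 := hpow τ
      have h3 := hψE τ
      simp only [Pi.mul_apply, Pi.sub_apply, Pi.zero_apply, Pi.pow_apply]
      rw [← h3, mul_pow] at h2
      linear_combination h2
    have hmd : MDiff (ψ ^ m - ⇑H) := (mdiff_pow hψ m).sub hHh
    rcases (UpperHalfPlane.mul_eq_zero_iff hmd hEm).mp h1 with h4 | h4
    · exact sub_eq_zero.mp h4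
    · exact absurd h4 hEmfun
  -- slash invariance
  have hslash : ∀ γ ∈ Γ, ψ ∣[k] γ = ψ := by
    intro γ hγ
    have hG : (⇑G : ℍ → ℂ) ∣[k + kE] γ = ⇑G := G.slash_action_eq' γ hγ
    have hEs : (⇑E : ℍ → ℂ) ∣[kE] γ = ⇑E := E.slash_action_eq' γ hγ
    have hdet : |(γ.det : ℝ)| = 1 := Subgroup.HasDetPlusMinusOne.abs_det hγ
    have h1 : (ψ ∣[k] γ - ψ) * ⇑E = 0 := by
      have h2 : (ψ * ⇑E) ∣[k + kE] γ = ψ ∣[k] γ * ⇑E := by
        rw [mul_slash, hdet, one_smul, hEs]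
      rw [hmulfun, hG] at h2
      rw [sub_mul, ← h2, hmulfun, sub_self]
    have hmd : MDiff (ψ ∣[k] γ - ψ) := (hψ.slash k γ).sub hψ
    rcases (UpperHalfPlane.mul_eq_zero_iff hmd hEh).mp h1 with h4 | h4
    · exact sub_eq_zero.mp h4
    · exact absurd h4 hEfun
  refine ⟨{ toFun := ψ
            slash_action_eq' := hslash
            holo' := hψ
            zero_at_cusps' := ?_ }, hψE, fun τ => congrFun hψm τ⟩
  intro c hc g hg
  have hH : IsZeroAtImInfty ((⇑H : ℍ → ℂ) ∣[(m : ℤ) * k] g) := H.zero_at_cusps' hc g hg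
  rw [← hψm] at hH
  have h2 : Tendsto (fun τ => ((ψ ∣[k] g) τ) ^ m) atImInfty (𝓝 0) := by
    have h3 : Tendsto (fun τ => ((ψ ^ m) ∣[(m : ℤ) * k] g) τ *
        ((|g.det.val| : ℝ) : ℂ) ^ (1 - (m : ℤ))) atImInfty
        (𝓝 (0 * ((|g.det.val| : ℝ) : ℂ) ^ (1 - (m : ℤ)))) := hH.mul_const _
    rw [zero_mul] at h3
    refine h3.congr ?_
    intro τ
    exact (pow_slash k m g ψ τ).symm
  exact tendsto_zero_of_pow h2

end Fermat.Agent.S48.A.Conj.PowDivide
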