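import Mathlib
import Fermat.Agent.S48.A.Conj.Level
import Fermat.Agent.S48.A.Conj.PowDivide

/-!
# A3, route E: from `Γ₁(N)` to `Γ₀(N)`

A cusp form on `Γ₁(N)` which is invariant under `Γ₀(N)` is a cusp form on `Γ₀(N)`.  This applies to
the product of a cusp form of nebentypus `ε` with a modular form of nebentypus `ε⁻¹`, and to the
`m`-th power of a cusp form of nebentypus `ε` when `ε ^ m = 1`.
-/

set_option autoImplicit false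

open UpperHalfPlane ModularForm CongruenceSubgroup
open scoped Manifold MatrixGroups

namespace Fermat.Agent.S48.A.Conj.Gamma0Lift

open Fermat.Agent.S48.A.Conj.Level

theorem Gamma1_GL_le_Gamma0 (N : ℕ) :
    (Gamma1 N : Subgroup (GL (Fin 2) ℝ)) ≤ (Gamma0 N : Subgroup (GL (Fin 2) ℝ)) :=
  Subgroup.map_mono (Gamma1_in_Gamma0 N)

/-- a cusp form on `Γ₁(N)` which is `Γ₀(N)`-invariant is a cusp form on `Γ₀(N)` -/
def cuspFormLift {N : ℕ} [NeZero N] {k : ℤ} (F : CuspForm (Gamma1 N) k)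
    (hF : ∀ γ : SL(2, ℤ), γ ∈ Gamma0 N → (⇑F : ℍ → ℂ) ∣[k] γ = ⇑F) : CuspForm (Gamma0 N) k where
  toFun := F
  slash_action_eq' γ hγ := by
    obtain ⟨A, hA, rfl⟩ := hγ
    exact hF A hA
  holo' := F.holo'
  zero_at_cusps' {c} hc := by
    refine F.zero_at_cusps' ?_
    rw [Subgroup.IsArithmetic.isCusp_iff_isCusp_SL2Z] at hc ⊢
    exact hc

theorem coe_cuspFormLift {N : ℕ} [NeZero N] {k : ℤ} (F : CuspForm (Gamma1 N) k)
    (hF : ∀ γ : SL(2, ℤ), γ ∈ Gamma0 N → (⇑F : ℍ → ℂ) ∣[k] γ = ⇑F) :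
    (⇑(cuspFormLift F hF) : ℍ → ℂ) = ⇑F := rfl

/-- restriction from `Γ₀(N)` to `Γ₁(N)` -/
def cuspFormRes {N : ℕ} {k : ℤ} (F : CuspForm (Gamma0 N) k) : CuspForm (Gamma1 N) k :=
  cuspFormOfLE (Gamma1_GL_le_Gamma0 N) F

theorem coe_cuspFormRes {N : ℕ} {k : ℤ} (F : CuspForm (Gamma0 N) k) :
    (⇑(cuspFormRes F) : ℍ → ℂ) = ⇑F := rfl

/-- the slash action of `SL(2, ℤ)` on a power -/
theorem pow_slash_SL2 (k : ℤ) (n : ℕ) (A : SL(2, ℤ)) (F : ℍ → ℂ) :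
    (F ^ n) ∣[(n : ℤ) * k] A = (F ∣[k] A) ^ n := by
  ext τ
  rw [SL_slash_apply, Pi.pow_apply, Pi.pow_apply, SL_slash_apply, mul_pow,
    ← zpow_natCast (denom A τ ^ (-k)) n, ← zpow_mul]
  congr 2
  ring

theorem isUnit_lower_right {N : ℕ} {γ : SL(2, ℤ)} (hγ : γ ∈ Gamma0 N) :
    IsUnit (((γ 1 1 : ℤ)) : ZMod N) := by
  have hγ0 : ((γ 1 0 : ℤ) : ZMod N) = 0 := Gamma0_mem.mp hγ
  have hdet : γ 0 0 * γ 1 1 - γ 0 1 * γ 1 0 = 1 := by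
    have := γ.2
    rwa [Matrix.det_fin_two] at this
  have hdet' := congrArg (Int.cast : ℤ → ZMod N) hdet
  push_cast at hdet'
  rw [hγ0, mul_zero, sub_zero] at hdet'
  exact IsUnit.of_mul_eq_one _ (by rw [mul_comm]; exact hdet')

variable {N : ℕ}

/-- the nebentypus relation -/
def HasNeb (ε : DirichletCharacter ℂ N) {k : ℤ} (F : ℍ → ℂ) : Prop :=
  ∀ γ : SL(2, ℤ), γ ∈ Gamma0 N → F ∣[k] γ = ε ((γ 1 1 : ℤ) : ZMod N) • F

theorem mul_invariant {ε χ : DirichletCharacter ℂ N} (hεχ : ε * χ = 1) {k₁ k₂ : ℤ}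
    {F₁ F₂ : ℍ → ℂ} (h₁ : HasNeb ε (k := k₁) F₁) (h₂ : HasNeb χ (k := k₂) F₂)
    (γ : SL(2, ℤ)) (hγ : γ ∈ Gamma0 N) : (F₁ * F₂) ∣[k₁ + k₂] γ = F₁ * F₂ := by
  rw [mul_slash_SL2, h₁ γ hγ, h₂ γ hγ, smul_mul_smul_comm]
  have h1 : ε ((γ 1 1 : ℤ) : ZMod N) * χ ((γ 1 1 : ℤ) : ZMod N) = 1 := by
    rw [← MulChar.mul_apply, hεχ, MulChar.one_apply (isUnit_lower_right hγ)]
  rw [h1, one_smul]

theorem pow_invariant {ε : DirichletCharacter ℂ N} {m : ℕ} (hεm : ε ^ m = 1) {k : ℤ}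
    {F : ℍ → ℂ} (h : HasNeb ε (k := k) F)
    (γ : SL(2, ℤ)) (hγ : γ ∈ Gamma0 N) : (F ^ m) ∣[(m : ℤ) * k] γ = F ^ m := by
  rw [pow_slash_SL2, h γ hγ, smul_pow]
  have h1 : ε ((γ 1 1 : ℤ) : ZMod N) ^ m = 1 := by
    obtain ⟨u, hu⟩ := isUnit_lower_right hγ
    rw [← hu, ← MulChar.pow_apply_coe, hεm, MulChar.one_apply_coe]
  rw [h1, one_smul]


variable [NeZero N]

/-- the product of a cusp form with nebentypus `ε` and a modular form with nebentypus `ε⁻¹`,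
as a cusp form on `Γ₀(N)` -/
def mulLift {ε χ : DirichletCharacter ℂ N} (hεχ : ε * χ = 1) {k₁ k₂ : ℤ}
    (f : CuspForm (Gamma1 N) k₁) (h : ModularForm (Gamma1 N) k₂)
    (hf : HasNeb ε (k := k₁) ⇑f) (hh : HasNeb χ (k := k₂) ⇑h) : CuspForm (Gamma0 N) (k₁ + k₂) :=
  cuspFormLift (f.mulModularForm h) (fun γ hγ => by
    rw [CuspForm.coe_mulModularForm]
    exact mul_invariant hεχ hf hh γ hγ)

theorem coe_mulLift {ε χ : DirichletCharacter ℂ N} (hεχ : ε * χ = 1) {k₁ k₂ : ℤ}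
    (f : CuspForm (Gamma1 N) k₁) (h : ModularForm (Gamma1 N) k₂)
    (hf : HasNeb ε (k := k₁) ⇑f) (hh : HasNeb χ (k := k₂) ⇑h) :
    (⇑(mulLift hεχ f h hf hh) : ℍ → ℂ) = ⇑f * ⇑h := rfl

theorem weight_eq (k : ℤ) {m : ℕ} (hm : 0 < m) : k + ((m - 1 : ℕ) : ℤ) * k = (m : ℤ) * k := by
  have h1 : 1 ≤ m := hm
  rw [Nat.cast_sub h1]
  push_cast
  ring

/-- the `m`-th power of a cusp form, `m ≥ 1` -/
def powCusp {Γ : Subgroup (GL (Fin 2) ℝ)} [Γ.HasDetPlusMinusOne] {k : ℤ} (f : CuspForm Γ k)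
    {m : ℕ} (hm : 0 < m) : CuspForm Γ ((m : ℤ) * k) :=
  CuspForm.mcast (weight_eq k hm)
    (f.mulModularForm ((ModularFormClass.modularForm f).pow (m - 1)))

theorem coe_powCusp {Γ : Subgroup (GL (Fin 2) ℝ)} [Γ.HasDetPlusMinusOne] {k : ℤ}
    (f : CuspForm Γ k) {m : ℕ} (hm : 0 < m) : (⇑(powCusp f hm) : ℍ → ℂ) = ⇑f ^ m := by
  have h1 : (⇑(powCusp f hm) : ℍ → ℂ) =
      ⇑f * ⇑((ModularFormClass.modularForm f).pow (m - 1)) := rfl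
  rw [h1, ModularForm.coe_pow]
  have h2 : (⇑(ModularFormClass.modularForm f) : ℍ → ℂ) = ⇑f := rfl
  rw [h2, ← pow_succ', Nat.sub_add_cancel hm]

/-- the `m`-th power of a cusp form with nebentypus `ε`, `ε ^ m = 1`, as a cusp form on `Γ₀(N)` -/
def powLift {ε : DirichletCharacter ℂ N} {m : ℕ} (hm : 0 < m) (hεm : ε ^ m = 1) {k : ℤ}
    (f : CuspForm (Gamma1 N) k) (hf : HasNeb ε (k := k) ⇑f) : CuspForm (Gamma0 N) ((m : ℤ) * k) :=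
  cuspFormLift (powCusp f hm) (fun γ hγ => by
    rw [coe_powCusp]
    exact pow_invariant hεm hf γ hγ)

theorem coe_powLift {ε : DirichletCharacter ℂ N} {m : ℕ} (hm : 0 < m) (hεm : ε ^ m = 1) {k : ℤ}
    (f : CuspForm (Gamma1 N) k) (hf : HasNeb ε (k := k) ⇑f) :
    (⇑(powLift hm hεm f hf) : ℍ → ℂ) = ⇑f ^ m := coe_powCusp f hm

end Fermat.Agent.S48.A.Conj.Gamma0Lift
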