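import Mathlib
import Fermat.Agent.S48.A.Conj.Gamma0Lift
import Fermat.Agent.S48.A.Conj.Eis3.QExp

/-!
# A3, route E: the conjugates of a weight one cusp form with nebentypus, from `Γ₀(N)`

Let `f` be a weight one cusp form on `Γ₁(N)` with odd nebentypus `ε`, and `h` the normalized
Eisenstein series of weight `3` and nebentypus `ε⁻¹`.  Then `f * h` and `f ^ φ(N)` are cusp forms on
`Γ₀(N)`.  If the `q`-expansions of cusp forms on `Γ₀(N)` are stable under `σ : ℂ →+* ℂ`, then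
`(f h)^σ / h^σ` is a weight one cusp form on `Γ₁(N)` with `q`-expansion `σ (f)`.
-/
set_option autoImplicit false

open UpperHalfPlane ModularForm CongruenceSubgroup
open scoped Manifold MatrixGroups

namespace Fermat.Agent.S48.A.Conj.Core

open Fermat.Agent.S48.A.Conj.Gamma0Lift Fermat.Agent.S48.A.Conj.Eis3.QExp
  Fermat.Agent.S48.A.Conj.PowDivide

variable {N : ℕ}

theorem odd_inv (ε : DirichletCharacter ℂ N) (hodd : ε (-1) = -1) : (ε⁻¹).Odd := by
  show ε⁻¹ (-1) = -1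
  rw [MulChar.inv_apply_eq_inv', hodd]
  norm_num

variable [NeZero N]

/-- `σ`-stability of the `q`-expansions of cusp forms on `Γ₀(N)`, in all weights `≥ 1` -/
def Stable0 (N : ℕ) (σ : ℂ →+* ℂ) : Prop :=
  ∀ (k : ℤ), 1 ≤ k → ∀ F : CuspForm (Gamma0 N) k, ∃ F' : CuspForm (Gamma0 N) k,
    qExpansion 1 F' = PowerSeries.map σ (qExpansion 1 F)

theorem card_units_pos (N : ℕ) [NeZero N] : 0 < Fintype.card (ZMod N)ˣ := Fintype.card_pos

theorem pow_card_eq_one' (ε : DirichletCharacter ℂ N) : ε ^ Fintype.card (ZMod N)ˣ = 1 := by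
  ext u
  rw [MulChar.pow_apply_coe, ← map_pow, ← Units.val_pow_eq_pow_val, pow_card_eq_one,
    Units.val_one, map_one, MulChar.one_apply_coe]

/-- the auxiliary Eisenstein series: weight `3`, nebentypus `ε⁻¹` -/
noncomputable def aux (ε : DirichletCharacter ℂ N) : ModularForm (Gamma1 N) ((3 : ℕ) : ℤ) :=
  eisNorm ε⁻¹ (le_refl 3)

theorem hasNeb_aux (ε : DirichletCharacter ℂ N) : HasNeb ε⁻¹ (k := ((3 : ℕ) : ℤ)) ⇑(aux ε) :=
  fun _ hγ => eisNorm_slash ε⁻¹ (le_refl 3) hγ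

/-- `f * h`, on `Γ₀(N)`, weight `4` -/
noncomputable def prodForm (ε : DirichletCharacter ℂ N) (f : CuspForm (Gamma1 N) 1)
    (hneb : HasNeb ε (k := 1) ⇑f) : CuspForm (Gamma0 N) (1 + ((3 : ℕ) : ℤ)) :=
  mulLift (mul_inv_cancel ε) f (aux ε) hneb (hasNeb_aux ε)

/-- `f ^ m`, on `Γ₀(N)`, weight `m`, `m = φ(N)` -/
noncomputable def powForm (ε : DirichletCharacter ℂ N) (f : CuspForm (Gamma1 N) 1)
    (hneb : HasNeb ε (k := 1) ⇑f) :
    CuspForm (Gamma0 N) ((Fintype.card (ZMod N)ˣ : ℤ) * 1) :=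
  powLift (card_units_pos N) (pow_card_eq_one' ε) f hneb

theorem qExpansion_prodForm (ε : DirichletCharacter ℂ N) (f : CuspForm (Gamma1 N) 1)
    (hneb : HasNeb ε (k := 1) ⇑f) :
    qExpansion 1 (prodForm ε f hneb) = qExpansion 1 f * qExpansion 1 (aux ε) :=
  ModularForm.qExpansion_mul_coe one_pos (one_mem_strictPeriods N) f (aux ε)

theorem qExpansion_powForm (ε : DirichletCharacter ℂ N) (f : CuspForm (Gamma1 N) 1)
    (hneb : HasNeb ε (k := 1) ⇑f) :
    qExpansion 1 (powForm ε f hneb) = qExpansion 1 f ^ Fintype.card (ZMod N)ˣ := by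
  have h1 : (⇑(powForm ε f hneb) : ℍ → ℂ) =
      ⇑((ModularFormClass.modularForm f).pow (Fintype.card (ZMod N)ˣ)) := by
    rw [ModularForm.coe_pow]
    exact coe_powLift _ _ f hneb
  rw [h1, ModularForm.qExpansion_pow one_pos (one_mem_strictPeriods N)]
  rfl


/-- **Route E, conjugates (core).**  If the `q`-expansions of cusp forms on `Γ₀(N)` are stable under
`σ`, then the conjugate by `σ` of a weight one cusp form of level `N` and nebentypus `ε` is again
such a cusp form (of nebentypus `σ ∘ ε`). -/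
theorem exists_conj_core (ε : DirichletCharacter ℂ N) (hodd : ε (-1) = -1)
    (f : CuspForm (Gamma1 N) 1) (hneb : HasNeb ε (k := 1) ⇑f) (σ : ℂ →+* ℂ)
    (hstab : Stable0 N σ) :
    ∃ f' : CuspForm (Gamma1 N) 1, qExpansion 1 f' = PowerSeries.map σ (qExpansion 1 f) := by
  have hΓ := one_mem_strictPeriods N
  have hχodd := odd_inv ε hodd
  have hk3o : Odd 3 := by decide
  set m := Fintype.card (ZMod N)ˣ with hmdef
  have hm : 0 < m := card_units_pos N
  set a := qExpansion 1 f with ha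
  set e₃ := qExpansion 1 (aux ε) with he₃
  obtain ⟨G0, hG0⟩ := hstab _ (by norm_num) (prodForm ε f hneb)
  have hm1 : (1 : ℤ) ≤ (m : ℤ) * 1 := by
    rw [mul_one]
    exact_mod_cast hm
  obtain ⟨H0, hH0⟩ := hstab _ hm1 (powForm ε f hneb)
  rw [qExpansion_prodForm] at hG0
  rw [qExpansion_powForm] at hH0
  let G : CuspForm (Gamma1 N) (1 + ((3 : ℕ) : ℤ)) := cuspFormRes G0
  let H : CuspForm (Gamma1 N) ((m : ℤ) * 1) := cuspFormRes H0
  let E' : ModularForm (Gamma1 N) ((3 : ℕ) : ℤ) := eisNorm (conjChar ε⁻¹ σ) (le_refl 3)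
  have hE' : qExpansion 1 E' = PowerSeries.map σ e₃ :=
    (map_qExpansion_eisNorm ε⁻¹ hχodd (le_refl 3) hk3o σ).symm
  have hE'ne : E' ≠ 0 := eisNorm_ne_zero _ (odd_conjChar ε⁻¹ hχodd σ) (le_refl 3) hk3o
  -- the identity `G ^ m = H * E' ^ m`
  let Gm : ModularForm (Gamma1 N) (1 + ((3 : ℕ) : ℤ)) := ModularFormClass.modularForm G
  let Hm : ModularForm (Gamma1 N) ((m : ℤ) * 1) := ModularFormClass.modularForm H
  have hGm : qExpansion 1 Gm = PowerSeries.map σ (a * e₃) := hG0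
  have hHm : qExpansion 1 Hm = PowerSeries.map σ (a ^ m) := hH0
  let D₁ : ModularForm (Gamma1 N) ((m : ℤ) * (1 + ((3 : ℕ) : ℤ))) := Gm.pow m
  let D₂ : ModularForm (Gamma1 N) ((m : ℤ) * (1 + ((3 : ℕ) : ℤ))) :=
    ModularForm.mcast (by ring) (Hm.mul (E'.pow m))
  let D : ModularForm (Gamma1 N) ((m : ℤ) * (1 + ((3 : ℕ) : ℤ))) := D₁ - D₂
  have hD : qExpansion 1 D = 0 := by
    have h1 : qExpansion 1 D = qExpansion 1 D₁ - qExpansion 1 D₂ :=
      ModularForm.qExpansion_sub one_pos hΓ D₁ D₂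
    have h2 : qExpansion 1 D₂ = qExpansion 1 (Hm.mul (E'.pow m)) := rfl
    rw [h1, h2, ModularForm.qExpansion_pow one_pos hΓ, ModularForm.qExpansion_mul one_pos hΓ,
      ModularForm.qExpansion_pow one_pos hΓ, hGm, hHm, hE', ← map_pow, ← map_pow, ← map_mul,
      ← map_sub]
    have : (a * e₃) ^ m - a ^ m * e₃ ^ m = 0 := by ring
    rw [this, map_zero]
  have hD0 : D = 0 := (ModularForm.qExpansion_eq_zero_iff one_pos hΓ D).mp hD
  have hpow : ∀ τ, G τ ^ m = H τ * E' τ ^ m := by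
    intro τ
    have h1 : D τ = 0 := by rw [hD0]; rfl
    have h2 : D τ = (Gm.pow m) τ - H τ * (E'.pow m) τ := rfl
    rw [h2, ModularForm.coe_pow, ModularForm.coe_pow] at h1
    exact sub_eq_zero.mp h1
  obtain ⟨ψ, hψE, -⟩ := exists_cuspForm_quotient_pow (k := 1) (kE := ((3 : ℕ) : ℤ)) hm rfl rfl
    G E' H hE'ne hpow
  refine ⟨ψ, ?_⟩
  have h1 : qExpansion 1 ψ * PowerSeries.map σ e₃ = PowerSeries.map σ a * PowerSeries.map σ e₃ := by
    have h2 : qExpansion 1 ((⇑ψ * ⇑E' : ℍ → ℂ)) = qExpansion 1 ψ * qExpansion 1 E' :=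
      ModularForm.qExpansion_mul_coe one_pos hΓ ψ E'
    have h3 : (⇑ψ * ⇑E' : ℍ → ℂ) = ⇑G := funext hψE
    have h4 : qExpansion 1 (⇑G : ℍ → ℂ) = PowerSeries.map σ (a * e₃) := hG0
    rw [h3, h4, map_mul, hE'] at h2
    exact h2.symm
  have he0 : PowerSeries.map σ e₃ ≠ 0 := by
    rw [← hE']
    exact fun h0 => hE'ne ((ModularForm.qExpansion_eq_zero_iff one_pos hΓ E').mp h0)
  exact mul_right_cancel₀ he0 h1

end Fermat.Agent.S48.A.Conj.Core
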