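import Mathlib

/-!
# A3, (vi)+(vii): the Hecke eigenvalues away from the level are algebraic integers of one
number field — a purely formal argument

Let `a : ℕ → ℂ` satisfy `a 1 = 1` and the formal Hecke relations
`a (p n) + e p * [p ∣ n] a (n / p) = a p * a n` for the primes `p ∤ N`, where the `e p` are
algebraic integers taking finitely many values.  If `a` is a `ℂ`-linear combination of finitely
many sequences of rational integers, then all the `a n` with `n` prime to `N` are algebraic
integers of one number field `K ⊆ ℂ`.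

Proof: let `O = ℤ[e]` and `A` the `O`-span of the `a n`, `n` prime to `N`.  The Hecke relations show
that `A` is stable under multiplication by the `a p` (`p ∤ N`), hence by all `a m` (`m` prime to
`N`), hence `A` is a ring.  On the other hand `A` is contained in the `O`-span of the finitely many
coefficients `c i`, which is a finitely generated `ℤ`-module.  So `A` is a ring which is finitely
generated as a `ℤ`-module.
-/

set_option autoImplicit false

namespace Fermat.Agent.S48.A.Conj.Integral

open Submodule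

section abstract

variable (N : ℕ) (e a : ℕ → ℂ)

/-- the generators: the `a n`, `n ≥ 1` prime to `N`. -/
def gens : Set ℂ := {x | ∃ n : ℕ, 0 < n ∧ n.Coprime N ∧ x = a n}

/-- the ring `ℤ[e]` as a `ℤ`-submodule of `ℂ`. -/
noncomputable def OM : Submodule ℤ ℂ := Subalgebra.toSubmodule (Algebra.adjoin ℤ (Set.range e))

/-- the `ℤ[e]`-span of the generators -/
noncomputable def AM : Submodule ℤ ℂ := OM e * span ℤ (gens N a)

theorem one_mem_OM : (1 : ℂ) ∈ OM e := (Algebra.adjoin ℤ (Set.range e)).one_mem

theorem e_mem_OM (p : ℕ) : e p ∈ OM e := Algebra.subset_adjoin ⟨p, rfl⟩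

theorem OM_mul_OM : OM e * OM e = OM e :=
  (Subalgebra.isIdempotentElem_toSubmodule (Algebra.adjoin ℤ (Set.range e))).eq

theorem OM_mul_AM : OM e * AM N e a = AM N e a := by
  unfold AM
  rw [← mul_assoc, OM_mul_OM]

theorem mul_mem_AM {o x : ℂ} (ho : o ∈ OM e) (hx : x ∈ AM N e a) : o * x ∈ AM N e a := by
  have := mul_mem_mul ho hx
  rwa [OM_mul_AM] at this

theorem span_le_AM : span ℤ (gens N a) ≤ AM N e a := by
  intro x hx
  have := mul_mem_mul (one_mem_OM e) hx
  rwa [one_mul] at this

theorem gen_mem_AM {n : ℕ} (hn : 0 < n) (hnN : n.Coprime N) : a n ∈ AM N e a :=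
  span_le_AM N e a (subset_span ⟨n, hn, hnN, rfl⟩)

variable {N e a}

/-- an induction principle for `AM`: a `ℤ`-linear predicate which holds on `o * a n` -/
theorem AM_induction {P : ℂ → Prop} (h0 : P 0) (hadd : ∀ x y, P x → P y → P (x + y))
    (hneg : ∀ x, P x → P (-x))
    (hgen : ∀ o ∈ OM e, ∀ n : ℕ, 0 < n → n.Coprime N → P (o * a n))
    {x : ℂ} (hx : x ∈ AM N e a) : P x := by
  unfold AM at hx
  refine Submodule.mul_induction_on hx ?_ (fun x y hx hy => hadd x y hx hy)
  intro o ho y hy
  -- induction on `y ∈ span ℤ gens`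
  induction hy using Submodule.span_induction with
  | mem y hy =>
    obtain ⟨n, hn, hnN, rfl⟩ := hy
    exact hgen o ho n hn hnN
  | zero => rw [mul_zero]; exact h0
  | add y z _ _ hy hz => rw [mul_add]; exact hadd _ _ hy hz
  | smul k y _ hy =>
    rw [mul_smul_comm]
    -- `k • z` for an integer `k`
    have hk : ∀ (k : ℤ) (z : ℂ), P z → P (k • z) := by
      intro k z hz
      induction k using Int.induction_on with
      | zero => rw [zero_smul]; exact h0
      | succ i ih => rw [add_smul, one_smul]; exact hadd _ _ ih hz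
      | pred i ih =>
        rw [sub_smul, one_smul, sub_eq_add_neg]
        exact hadd _ _ ih (hneg _ hz)
    exact hk k _ hy

variable (h1 : a 1 = 1)
  (hT : ∀ p : ℕ, p.Prime → ¬ p ∣ N → ∀ n : ℕ,
    a (p * n) + e p * (if p ∣ n then a (n / p) else 0) = a p * a n)

include hT in
/-- Claim 1: `AM` is stable under multiplication by `a p`, `p ∤ N`. -/
theorem prime_mul_mem {p : ℕ} (hp : p.Prime) (hpN : ¬ p ∣ N) {x : ℂ} (hx : x ∈ AM N e a) :
    a p * x ∈ AM N e a := by
  refine AM_induction (P := fun x => a p * x ∈ AM N e a) ?_ ?_ ?_ ?_ hx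
  · simp only [mul_zero]; exact zero_mem _
  · intro x y hx hy
    simp only [mul_add]; exact add_mem hx hy
  · intro x hx
    simp only [mul_neg]; exact neg_mem hx
  · intro o ho n hn hnN
    have hpcop : p.Coprime N := (Nat.Prime.coprime_iff_not_dvd hp).mpr hpN
    have h2 : a p * (o * a n) = o * (a p * a n) := by ring
    simp only [h2]
    rw [← hT p hp hpN n, mul_add]
    refine add_mem ?_ ?_
    · exact mul_mem_AM N e a ho
        (gen_mem_AM N e a (Nat.mul_pos hp.pos hn) (Nat.Coprime.mul_left hpcop hnN))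
    · split_ifs with hpn
      · have hnp : 0 < n / p := Nat.div_pos (Nat.le_of_dvd hn hpn) hp.pos
        have hnpN : (n / p).Coprime N :=
          Nat.Coprime.coprime_dvd_left (Nat.div_dvd_of_dvd hpn) hnN
        exact mul_mem_AM N e a ho (mul_mem_AM N e a (e_mem_OM e p) (gen_mem_AM N e a hnp hnpN))
      · simp only [mul_zero]; exact zero_mem _

include h1 hT in
/-- Claim 2: `AM` is stable under multiplication by `a m`, `m` prime to `N`. -/
theorem gen_mul_mem : ∀ m : ℕ, 0 < m → m.Coprime N → ∀ x ∈ AM N e a, a m * x ∈ AM N e a := by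
  intro m
  induction m using Nat.strong_induction_on with
  | _ m ih =>
    intro hm hmN x hx
    by_cases hm1 : m = 1
    · rw [hm1, h1, one_mul]; exact hx
    · have hp : (m.minFac).Prime := Nat.minFac_prime hm1
      set p := m.minFac with hpdef
      have hpm : p ∣ m := Nat.minFac_dvd m
      obtain ⟨m', hm'⟩ := hpm
      have hm'pos : 0 < m' := by
        rcases Nat.eq_zero_or_pos m' with h | h
        · rw [h, mul_zero] at hm'; omega
        · exact h
      have hm'lt : m' < m := by
        rw [hm']
        exact lt_mul_of_one_lt_left hm'pos hp.one_lt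
      have hm'N : m'.Coprime N := Nat.Coprime.coprime_dvd_left ⟨p, by rw [hm', mul_comm]⟩ hmN
      have hpN : ¬ p ∣ N := by
        intro hpN
        have : p ∣ Nat.gcd m N := Nat.dvd_gcd (Nat.minFac_dvd m) hpN
        rw [hmN] at this
        exact hp.one_lt.ne' (Nat.dvd_one.mp this)
      have hrel := hT p hp hpN m'
      have ham : a m = a p * a m' - e p * (if p ∣ m' then a (m' / p) else 0) := by
        rw [hm', ← hrel]; ring
      rw [ham, sub_mul]
      refine sub_mem ?_ ?_
      · rw [mul_assoc]
        exact prime_mul_mem hT hp hpN (ih m' hm'lt hm'pos hm'N x hx)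
      · split_ifs with hpm'
        · have hnp : 0 < m' / p := Nat.div_pos (Nat.le_of_dvd hm'pos hpm') hp.pos
          have hnpN : (m' / p).Coprime N :=
            Nat.Coprime.coprime_dvd_left (Nat.div_dvd_of_dvd hpm') hm'N
          have hlt : m' / p < m := lt_of_le_of_lt (Nat.div_le_self _ _) hm'lt
          rw [mul_assoc]
          exact mul_mem_AM N e a (e_mem_OM e p) (ih (m' / p) hlt hnp hnpN x hx)
        · simp only [mul_zero, zero_mul]; exact zero_mem _

include h1 hT in
/-- Claim 3: `AM` is closed under multiplication. -/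
theorem mul_mem_AM_of_mem {y x : ℂ} (hy : y ∈ AM N e a) (hx : x ∈ AM N e a) :
    y * x ∈ AM N e a := by
  refine AM_induction (P := fun y => y * x ∈ AM N e a) ?_ ?_ ?_ ?_ hy
  · simp only [zero_mul]; exact zero_mem _
  · intro y z hy hz
    simp only [add_mul]; exact add_mem hy hz
  · intro y hy
    simp only [neg_mul]; exact neg_mem hy
  · intro o ho n hn hnN
    simp only [mul_assoc]
    exact mul_mem_AM N e a ho (gen_mul_mem h1 hT n hn hnN x hx)

include h1 in
theorem AM_ne_bot : AM N e a ≠ ⊥ := by
  intro h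
  have h2 : a 1 ∈ AM N e a := gen_mem_AM N e a one_pos (Nat.coprime_one_left N)
  rw [h, Submodule.mem_bot, h1] at h2
  exact one_ne_zero h2

/-- `AM` is finitely generated as soon as `a` is a combination of finitely many integer sequences
and `e` takes finitely many integral values. -/
theorem AM_fg (hefin : (Set.range e).Finite) (heint : ∀ p, IsIntegral ℤ (e p))
    {ι : Type*} [Fintype ι] (c : ι → ℂ) (g : ι → ℕ → ℤ)
    (ha : ∀ n, a n = ∑ i, c i * (g i n : ℂ)) : (AM N e a).FG := by
  have hO : (OM e).FG := by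
    unfold OM
    refine fg_adjoin_of_finite hefin ?_
    rintro x ⟨p, rfl⟩
    exact heint p
  have hΛ : (OM e * span ℤ (Set.range c)).FG := hO.mul (fg_span (Set.finite_range c))
  refine FG.of_le hΛ ?_
  unfold AM
  refine mul_le_mul' le_rfl ?_
  rw [span_le]
  rintro x ⟨n, -, -, rfl⟩
  rw [ha n]
  refine sum_mem fun i _ => ?_
  have : c i * (g i n : ℂ) = (g i n) • c i := by
    rw [zsmul_eq_mul, mul_comm]
  rw [this]
  exact zsmul_mem (subset_span (Set.mem_range_self i)) _

include h1 hT in
theorem isIntegral_of_mem_AM (hfg : (AM N e a).FG) {y : ℂ} (hy : y ∈ AM N e a) :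
    IsIntegral ℤ y := by
  refine isIntegral_of_smul_mem_submodule (AM N e a) (AM_ne_bot h1) hfg y ?_
  intro x hx
  rw [smul_eq_mul]
  exact mul_mem_AM_of_mem h1 hT hy hx

include h1 hT in
/-- **The number field.** -/
theorem exists_field (hfg : (AM N e a).FG) :
    ∃ K : IntermediateField ℚ ℂ, FiniteDimensional ℚ K ∧
      (∀ n : ℕ, 0 < n → n.Coprime N → ∃ x : K, (x : ℂ) = a n ∧ IsIntegral ℤ x) ∧
      ∀ p : ℕ, ∃ x : K, (x : ℂ) = e p ∧ IsIntegral ℤ x := by
  obtain ⟨t, ht⟩ := hfg
  have htA : ∀ x ∈ t, x ∈ AM N e a := by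
    intro x hx
    rw [← ht]
    exact subset_span hx
  have htint : ∀ x ∈ (t : Set ℂ), IsIntegral ℚ x := by
    intro x hx
    exact (isIntegral_of_mem_AM h1 hT ⟨t, ht⟩ (htA x hx)).tower_top
  let K : IntermediateField ℚ ℂ := IntermediateField.adjoin ℚ (t : Set ℂ)
  have hfin : FiniteDimensional ℚ K := IntermediateField.finiteDimensional_adjoin htint
  have hAK : ∀ y ∈ AM N e a, y ∈ K := by
    intro y hy
    rw [← ht] at hy
    induction hy using Submodule.span_induction with
    | mem y hy => exact IntermediateField.subset_adjoin ℚ _ hy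
    | zero => exact K.zero_mem
    | add y z _ _ hy hz => exact K.add_mem hy hz
    | smul k y _ hy =>
      rw [zsmul_eq_mul]
      exact K.mul_mem (K.intCast_mem k) hy
  have hmk : ∀ y ∈ AM N e a, ∃ x : K, (x : ℂ) = y ∧ IsIntegral ℤ x := by
    intro y hy
    refine ⟨⟨y, hAK y hy⟩, rfl, ?_⟩
    have h3 : IsIntegral ℤ y := isIntegral_of_mem_AM h1 hT ⟨t, ht⟩ hy
    exact (isIntegral_algebraMap_iff (algebraMap K ℂ).injective).mp h3
  refine ⟨K, hfin, fun n hn hnN => hmk _ (gen_mem_AM N e a hn hnN), fun p => hmk _ ?_⟩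
  have := mul_mem_AM N e a (e_mem_OM e p) (gen_mem_AM N e a one_pos (Nat.coprime_one_left N))
  rwa [h1, mul_one] at this

end abstract

end Fermat.Agent.S48.A.Conj.Integral
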