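import Mathlib
import Fermat.Agent.S48.A.Conj.Removable

/-!
# A3, steps (iii)-(v): dividing a cusp form by a modular form

Let `G` be a cusp form of weight `k + kE`, `E` a nonzero modular form of weight `kE` and `H` a cusp
form of weight `k + k` for the same group `Γ`, such that `G ^ 2 = H * E ^ 2`.  Then `G / E` is a
cusp form of weight `k` for `Γ`, whose square is `H`.
-/

set_option autoImplicit false

open Filter Topology UpperHalfPlane ModularForm
open scoped Manifold MatrixGroups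

namespace Fermat.Agent.S48.A.Conj.Divide

open Fermat.Agent.S48.A.Conj.Removable

/-- If the square of a function tends to zero then so does the function. -/
theorem tendsto_zero_of_mul_self {α : Type*} {l : Filter α} {f : α → ℂ}
    (h : Tendsto (fun x => f x * f x) l (𝓝 0)) : Tendsto f l (𝓝 0) := by
  rw [tendsto_zero_iff_norm_tendsto_zero] at h ⊢
  have h2 : Tendsto (fun x => Real.sqrt ‖f x * f x‖) l (𝓝 (Real.sqrt 0)) :=
    (Real.continuous_sqrt.tendsto 0).comp h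
  rw [Real.sqrt_zero] at h2
  refine h2.congr ?_
  intro x
  rw [norm_mul, Real.sqrt_mul_self (norm_nonneg _)]

theorem exists_cuspForm_quotient {Γ : Subgroup (GL (Fin 2) ℝ)} [Γ.HasDetPlusMinusOne]
    {k kE kG kH : ℤ} (hkG : kG = k + kE) (hkH : kH = k + k)
    (G : CuspForm Γ kG) (E : ModularForm Γ kE) (H : CuspForm Γ kH) (hE : E ≠ 0)
    (hsq : ∀ τ, G τ ^ 2 = H τ * E τ ^ 2) :
    ∃ ψ : CuspForm Γ k, (∀ τ, ψ τ * E τ = G τ) ∧ ∀ τ, ψ τ * ψ τ = H τ := by
  subst hkG hkH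
  have hE0 : ∃ τ, E τ ≠ 0 := by
    by_contra hcon
    apply hE
    ext τ
    by_contra h2
    exact hcon ⟨τ, h2⟩
  have hEfun : (⇑E : ℍ → ℂ) ≠ 0 := by
    obtain ⟨τ, hτ⟩ := hE0
    intro h0
    exact hτ (by rw [h0]; rfl)
  have hGh : MDiff (⇑G : ℍ → ℂ) := G.holo'
  have hEh : MDiff (⇑E : ℍ → ℂ) := E.holo'
  have hHh : MDiff (⇑H : ℍ → ℂ) := H.holo'
  obtain ⟨ψ, hψ, hψE⟩ := exists_mdiff_quotient hGh hEh hHh hE0 hsq
  have hmulfun : ψ * ⇑E = ⇑G := funext hψE
  -- ψ * ψ = H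
  have hψψ : ψ * ψ = ⇑H := by
    have h1 : (ψ * ψ - ⇑H) * (⇑E * ⇑E) = 0 := by
      funext τ
      have h2 := hsq τ
      have h3 := hψE τ
      simp only [Pi.mul_apply, Pi.sub_apply, Pi.zero_apply]
      rw [← h3] at h2
      linear_combination h2
    have hmd : MDiff (ψ * ψ - ⇑H) := (hψ.mul hψ).sub hHh
    rcases (UpperHalfPlane.mul_eq_zero_iff hmd (hEh.mul hEh)).mp h1 with h4 | h4
    · exact sub_eq_zero.mp h4
    · exfalso
      rcases (UpperHalfPlane.mul_eq_zero_iff hEh hEh).mp h4 with h5 | h5 <;>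
        exact hEfun h5
  -- slash invariance
  have hslash : ∀ γ ∈ Γ, ψ ∣[k] γ = ψ := by
    intro γ hγ
    have hG : (⇑G : ℍ → ℂ) ∣[k + kE] γ = ⇑G := G.slash_action_eq' γ hγ
    have hEs : (⇑E : ℍ → ℂ) ∣[kE] γ = ⇑E := E.slash_action_eq' γ hγ
    have hdet : |(γ.det : ℝ)| = 1 := Subgroup.HasDetPlusMinusOne.abs_det hγ
    have h1 : (ψ ∣[k] γ - ψ) * ⇑E = 0 := by
      have h2 : (ψ * ⇑E) ∣[k + kE] γ = ψ ∣[k] γ * ⇑E := by
        rw [mul_slash, hdet, one_smul, hEs]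
      rw [hmulfun, hG] at h2
      rw [sub_mul, ← h2, hmulfun, sub_self]
    have hmd : MDiff (ψ ∣[k] γ - ψ) := (hψ.slash k γ).sub hψ
    rcases (UpperHalfPlane.mul_eq_zero_iff hmd hEh).mp h1 with h4 | h4
    · exact sub_eq_zero.mp h4
    · exact absurd h4 hEfun
  refine ⟨{ toFun := ψ
            slash_action_eq' := hslash
            holo' := hψ
            zero_at_cusps' := ?_ }, hψE, fun τ => congrFun hψψ τ⟩
  intro c hc g hg
  have hH : IsZeroAtImInfty ((⇑H : ℍ → ℂ) ∣[k + k] g) := H.zero_at_cusps' hc g hg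
  rw [← hψψ, mul_slash] at hH
  have hdet : |(g.det : ℝ)| ≠ 0 := abs_ne_zero.mpr (Matrix.GeneralLinearGroup.det_ne_zero g)
  have h2 : Tendsto (fun τ => (ψ ∣[k] g) τ * (ψ ∣[k] g) τ) atImInfty (𝓝 0) := by
    have h3 : Tendsto (fun τ => (|(g.det : ℝ)|)⁻¹ • (|(g.det : ℝ)| • (ψ ∣[k] g * ψ ∣[k] g)) τ)
        atImInfty (𝓝 ((|(g.det : ℝ)|)⁻¹ • (0 : ℂ))) := hH.const_smul _
    rw [smul_zero] at h3
    refine h3.congr ?_
    intro τ
    simp only [Pi.smul_apply, Pi.mul_apply]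
    rw [smul_smul, inv_mul_cancel₀ hdet, one_smul]
  exact tendsto_zero_of_mul_self h2

end Fermat.Agent.S48.A.Conj.Divide
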