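import Mathlib
import Fermat.Prelude.Def_FLTPrelim_Modularity
import Fermat.Agent.S48.A.Conj.Divide

/-!
# A3: conjugates of weight one cusp forms

Let `Γ` be a subgroup of `GL(2, ℝ)` with strict period `h`, let `σ : ℂ →+* ℂ` be a ring
homomorphism.  Assume that the set of `q`-expansions of weight two cusp forms on `Γ` is stable
under `σ`, and that there is a nonzero weight one modular form `E` on `Γ` whose `q`-expansion is
fixed by `σ`.  Then the set of `q`-expansions of weight one cusp forms on `Γ` is stable under `σ`.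
-/

set_option autoImplicit false

open UpperHalfPlane ModularForm CongruenceSubgroup
open scoped Manifold MatrixGroups

namespace Fermat.Agent.S48.A.Conj.Main

open Fermat.Agent.S48.A.Conj.Divide

theorem exists_conj_of_stable {Γ : Subgroup (GL (Fin 2) ℝ)} [Γ.HasDetPlusMinusOne] {h : ℝ}
    (hh : 0 < h) (hΓ : h ∈ Γ.strictPeriods) (σ : ℂ →+* ℂ)
    (hstab : ∀ g : CuspForm Γ 2, ∃ g' : CuspForm Γ 2,
      qExpansion h g' = PowerSeries.map σ (qExpansion h g))
    (E : ModularForm Γ 1) (hE : E ≠ 0)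
    (hEσ : PowerSeries.map σ (qExpansion h E) = qExpansion h E)
    (f : CuspForm Γ 1) :
    ∃ f' : CuspForm Γ 1, qExpansion h f' = PowerSeries.map σ (qExpansion h f) := by
  set a := qExpansion h f with ha
  set e := qExpansion h E with he
  -- the two auxiliary weight two cusp forms
  let fE : CuspForm Γ 2 := CuspForm.mcast (by norm_num) (f.mulModularForm E)
  let ff : CuspForm Γ 2 :=
    CuspForm.mcast (by norm_num) (f.mulModularForm (ModularFormClass.modularForm f))
  have hfE : qExpansion h fE = a * e := ModularForm.qExpansion_mul_coe hh hΓ f E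
  have hff : qExpansion h ff = a * a := ModularForm.qExpansion_mul_coe hh hΓ f f
  obtain ⟨G, hG⟩ := hstab fE
  obtain ⟨H, hH⟩ := hstab ff
  rw [hfE] at hG
  rw [hff] at hH
  -- the identity `G ^ 2 = H * E ^ 2`
  let Gm : ModularForm Γ 2 := ModularFormClass.modularForm G
  let Hm : ModularForm Γ 2 := ModularFormClass.modularForm H
  let D₁ : ModularForm Γ (2 + 2) := Gm.mul Gm
  let D₂ : ModularForm Γ (2 + 2) := ModularForm.mcast (by norm_num) (Hm.mul (E.mul E))
  let D : ModularForm Γ (2 + 2) := D₁ - D₂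
  have hGm : qExpansion h Gm = PowerSeries.map σ (a * e) := hG
  have hHm : qExpansion h Hm = PowerSeries.map σ (a * a) := hH
  have hD : qExpansion h D = 0 := by
    have h1 : qExpansion h D = qExpansion h D₁ - qExpansion h D₂ :=
      ModularForm.qExpansion_sub hh hΓ D₁ D₂
    have h2 : qExpansion h D₂ = qExpansion h (Hm.mul (E.mul E)) := rfl
    rw [h1, h2, ModularForm.qExpansion_mul hh hΓ,
      ModularForm.qExpansion_mul hh hΓ, ModularForm.qExpansion_mul hh hΓ, hGm, hHm, ← he]
    nth_rewrite 3 [← hEσ]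
    nth_rewrite 4 [← hEσ]
    rw [← map_mul, ← map_mul, ← map_mul, ← map_sub]
    have : a * e * (a * e) - a * a * (e * e) = 0 := by ring
    rw [this, map_zero]
  have hD0 : D = 0 := (ModularForm.qExpansion_eq_zero_iff hh hΓ D).mp hD
  have hsq : ∀ τ, G τ ^ 2 = H τ * E τ ^ 2 := by
    intro τ
    have h1 : D τ = 0 := by rw [hD0]; rfl
    have h2 : D τ = G τ * G τ - H τ * (E τ * E τ) := rfl
    rw [h2] at h1
    linear_combination h1
  obtain ⟨ψ, hψE, -⟩ := exists_cuspForm_quotient (k := 1) (kE := 1) (kG := 2) (kH := 2)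
    (by norm_num) (by norm_num) G E H hE hsq
  refine ⟨ψ, ?_⟩
  have h1 : qExpansion h ψ * e = PowerSeries.map σ a * e := by
    have h2 : qExpansion h ((⇑ψ * ⇑E : ℍ → ℂ)) = qExpansion h ψ * qExpansion h E :=
      ModularForm.qExpansion_mul_coe hh hΓ ψ E
    have h3 : (⇑ψ * ⇑E : ℍ → ℂ) = ⇑G := funext hψE
    rw [h3, hG, map_mul, hEσ] at h2
    exact h2.symm
  have he0 : e ≠ 0 := fun h0 => hE ((ModularForm.qExpansion_eq_zero_iff hh hΓ E).mp h0)
  exact mul_right_cancel₀ he0 h1

/-- the Prelude's `qCoeff`, unfolded (`rfl`). -/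
theorem qCoeff_def (f : ℍ → ℂ) (n : ℕ) :
    ModularFormClass.qCoeff f n = PowerSeries.coeff n (qExpansion 1 f) := rfl

theorem one_mem_strictPeriods_Gamma1 (M : ℕ) :
    (1 : ℝ) ∈ (Gamma1 M : Subgroup (GL (Fin 2) ℝ)).strictPeriods := by
  rw [strictPeriods_Gamma1]
  exact AddSubgroup.mem_zmultiples 1

/-- **A3, conjugates.**  If the `q`-expansions of weight two cusp forms on `Γ₁(M)` are stable
under the ring homomorphism `σ : ℂ →+* ℂ`, and `E` is a nonzero weight one modular form on `Γ₁(M)`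
with `σ`-fixed `q`-coefficients, then the `q`-expansions of weight one cusp forms on `Γ₁(M)` are
stable under `σ`. -/
theorem exists_conj_Gamma1 (M : ℕ) (σ : ℂ →+* ℂ)
    (hstab : ∀ g : CuspForm (Gamma1 M) 2, ∃ g' : CuspForm (Gamma1 M) 2,
      ∀ n, ModularFormClass.qCoeff g' n = σ (ModularFormClass.qCoeff g n))
    (E : ModularForm (Gamma1 M) 1) (hE : E ≠ 0)
    (hEσ : ∀ n, σ (ModularFormClass.qCoeff E n) = ModularFormClass.qCoeff E n)
    (f : CuspForm (Gamma1 M) 1) :
    ∃ f' : CuspForm (Gamma1 M) 1,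
      ∀ n, ModularFormClass.qCoeff f' n = σ (ModularFormClass.qCoeff f n) := by
  have hstab' : ∀ g : CuspForm (Gamma1 M) 2, ∃ g' : CuspForm (Gamma1 M) 2,
      qExpansion 1 g' = PowerSeries.map σ (qExpansion 1 g) := by
    intro g
    obtain ⟨g', hg'⟩ := hstab g
    refine ⟨g', ?_⟩
    ext n
    rw [PowerSeries.coeff_map]
    exact hg' n
  have hEσ' : PowerSeries.map σ (qExpansion 1 E) = qExpansion 1 E := by
    ext n
    rw [PowerSeries.coeff_map]
    exact hEσ n
  obtain ⟨f', hf'⟩ := exists_conj_of_stable one_pos (one_mem_strictPeriods_Gamma1 M) σ hstab'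
    E hE hEσ' f
  refine ⟨f', fun n => ?_⟩
  have := congrArg (PowerSeries.coeff n) hf'
  rw [PowerSeries.coeff_map] at this
  exact this

end Fermat.Agent.S48.A.Conj.Main
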