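import Mathlib
import Fermat.Prelude.Def_FLTPrelim_Modularity
import Fermat.Agent.S48.A.Conj.Integral
import Fermat.Agent.S48.A.Conj.Main

/-!
# A3, (vi)+(vii) for modular forms

From (B-Z) at level `M` (the weight two cusp forms on `Γ₁(M)` are spanned by forms with integral
`q`-expansion) and a weight one modular form `E` on `Γ₁(M)` with integral `q`-expansion and constant
term `± 1`, every weight one cusp form on `Γ₁(M)` has a `q`-expansion which is a `ℂ`-linear
combination of finitely many power series with integral coefficients.  Together with the formal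
theorem of `Integral.lean` this gives the number field of a Hecke eigensystem.
-/

set_option autoImplicit false

open UpperHalfPlane ModularForm CongruenceSubgroup
open scoped Manifold MatrixGroups

namespace Fermat.Agent.S48.A.Conj.Field

open Fermat.Agent.S48.A.Conj.Main Fermat.Agent.S48.A.Conj.Integral

/-- the weight two cusp forms on `Γ₁(M)` with integral `q`-expansion -/
def intSet (M : ℕ) : Set (CuspForm (Gamma1 M) 2) :=
  {h | ∀ n : ℕ, ∃ m : ℤ, ModularFormClass.qCoeff h n = (m : ℂ)}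

/-- a power series over `ℂ` is an *integral combination* if it is a finite `ℂ`-linear combination
of power series with coefficients in `ℤ`. -/
def IsIntComb (φ : PowerSeries ℂ) : Prop :=
  ∃ (ι : Type) (_ : Fintype ι) (c : ι → ℂ) (G : ι → PowerSeries ℤ),
    φ = ∑ i, c i • PowerSeries.map (Int.castRingHom ℂ) (G i)

theorem isIntComb_zero : IsIntComb 0 :=
  ⟨PEmpty, inferInstance, PEmpty.elim, PEmpty.elim, by simp⟩

theorem IsIntComb.add {φ ψ : PowerSeries ℂ} (hφ : IsIntComb φ) (hψ : IsIntComb ψ) :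
    IsIntComb (φ + ψ) := by
  obtain ⟨ι, _, c, G, rfl⟩ := hφ
  obtain ⟨κ, _, d, H, rfl⟩ := hψ
  refine ⟨ι ⊕ κ, inferInstance, Sum.elim c d, Sum.elim G H, ?_⟩
  rw [Fintype.sum_sum_type]
  rfl

theorem IsIntComb.smul {φ : PowerSeries ℂ} (hφ : IsIntComb φ) (z : ℂ) : IsIntComb (z • φ) := by
  obtain ⟨ι, _, c, G, rfl⟩ := hφ
  refine ⟨ι, inferInstance, fun i => z * c i, G, ?_⟩
  rw [Finset.smul_sum]
  refine Finset.sum_congr rfl fun i _ => ?_
  rw [smul_smul]

theorem IsIntComb.mul_map {φ : PowerSeries ℂ} (hφ : IsIntComb φ) (u : PowerSeries ℤ) :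
    IsIntComb (φ * PowerSeries.map (Int.castRingHom ℂ) u) := by
  obtain ⟨ι, _, c, G, rfl⟩ := hφ
  refine ⟨ι, inferInstance, c, fun i => G i * u, ?_⟩
  rw [Finset.sum_mul]
  refine Finset.sum_congr rfl fun i _ => ?_
  rw [map_mul, smul_mul_assoc]

theorem IsIntComb.coeff {φ : PowerSeries ℂ} (hφ : IsIntComb φ) :
    ∃ (ι : Type) (_ : Fintype ι) (c : ι → ℂ) (g : ι → ℕ → ℤ),
      ∀ n, PowerSeries.coeff n φ = ∑ i, c i * (g i n : ℂ) := by
  obtain ⟨ι, _, c, G, rfl⟩ := hφ
  refine ⟨ι, inferInstance, c, fun i n => PowerSeries.coeff n (G i), fun n => ?_⟩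
  rw [map_sum]
  refine Finset.sum_congr rfl fun i _ => ?_
  rw [PowerSeries.coeff_smul, PowerSeries.coeff_map]
  rfl

/-- an integral power series lifting the `q`-expansion of a form with integral coefficients -/
theorem exists_int_lift {φ : PowerSeries ℂ} (h : ∀ n, ∃ m : ℤ, PowerSeries.coeff n φ = (m : ℂ)) :
    ∃ u : PowerSeries ℤ, PowerSeries.map (Int.castRingHom ℂ) u = φ := by
  choose m hm using h
  refine ⟨PowerSeries.mk m, ?_⟩
  ext n
  rw [PowerSeries.coeff_map, PowerSeries.coeff_mk, hm n]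
  rfl

variable {M : ℕ}

/-- (B-Z) implies that every weight two cusp form has an integral-combination `q`-expansion. -/
theorem isIntComb_of_BZ (hBZ : Submodule.span ℂ (intSet M) = ⊤) (F : CuspForm (Gamma1 M) 2) :
    IsIntComb (qExpansion 1 F) := by
  have hF : F ∈ Submodule.span ℂ (intSet M) := by rw [hBZ]; trivial
  have hΓ := one_mem_strictPeriods_Gamma1 M
  induction hF using Submodule.span_induction with
  | mem F hF =>
    obtain ⟨u, hu⟩ := exists_int_lift (φ := qExpansion 1 F) hF
    refine ⟨PUnit, inferInstance, fun _ => 1, fun _ => u, ?_⟩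
    simp [hu]
  | zero =>
    have : qExpansion 1 (⇑(0 : CuspForm (Gamma1 M) 2)) = 0 := qExpansion_zero 1
    rw [this]
    exact isIntComb_zero
  | add F F' _ _ hF hF' =>
    have : qExpansion 1 (⇑(F + F')) = qExpansion 1 F + qExpansion 1 F' :=
      ModularForm.qExpansion_add one_pos hΓ F F'
    rw [this]
    exact hF.add hF'
  | smul z F _ hF =>
    have : qExpansion 1 (⇑(z • F)) = z • qExpansion 1 F :=
      ModularForm.qExpansion_smul one_pos hΓ z F
    rw [this]
    exact hF.smul z

/-- **Integral combinations in weight one.** -/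
theorem isIntComb_weight_one (hBZ : Submodule.span ℂ (intSet M) = ⊤)
    (E : ModularForm (Gamma1 M) 1)
    (hEint : ∀ n : ℕ, ∃ m : ℤ, ModularFormClass.qCoeff E n = (m : ℂ))
    (hE0 : ModularFormClass.qCoeff E 0 = 1 ∨ ModularFormClass.qCoeff E 0 = -1)
    (f : CuspForm (Gamma1 M) 1) : IsIntComb (qExpansion 1 f) := by
  have hΓ := one_mem_strictPeriods_Gamma1 M
  obtain ⟨u, hu⟩ := exists_int_lift (φ := qExpansion 1 E) hEint
  -- `u` is a unit of `ℤ⟦X⟧`
  have hu0 : IsUnit (PowerSeries.constantCoeff u) := by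
    have h0 : ((PowerSeries.constantCoeff u : ℤ) : ℂ) = PowerSeries.coeff 0 (qExpansion 1 E) := by
      rw [← hu, PowerSeries.coeff_map, PowerSeries.coeff_zero_eq_constantCoeff]
      rfl
    rw [Int.isUnit_iff]
    rcases hE0 with h | h
    · left
      have : ((PowerSeries.constantCoeff u : ℤ) : ℂ) = ((1 : ℤ) : ℂ) := by
        rw [h0, ← qCoeff_def, h, Int.cast_one]
      exact_mod_cast this
    · right
      have : ((PowerSeries.constantCoeff u : ℤ) : ℂ) = ((-1 : ℤ) : ℂ) := by
        rw [h0, ← qCoeff_def, h, Int.cast_neg, Int.cast_one]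
      exact_mod_cast this
  obtain ⟨v, hv⟩ := (PowerSeries.isUnit_iff_constantCoeff.mpr hu0).exists_right_inv
  let fE : CuspForm (Gamma1 M) 2 := CuspForm.mcast (by norm_num) (f.mulModularForm E)
  have hfE : qExpansion 1 fE = qExpansion 1 f * qExpansion 1 E :=
    ModularForm.qExpansion_mul_coe one_pos hΓ f E
  have h1 := (isIntComb_of_BZ hBZ fE).mul_map v
  rw [hfE, ← hu, mul_assoc, ← map_mul, hv, map_one, mul_one] at h1
  exact h1

/-- **A3 (vi)+(vii): the number field of a weight one eigensystem.**  Here `f` has level `M`, and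
the Hecke relations are those of level `N` and character `ε`. -/
theorem exists_field_of_BZ (hBZ : Submodule.span ℂ (intSet M) = ⊤)
    (E : ModularForm (Gamma1 M) 1)
    (hEint : ∀ n : ℕ, ∃ m : ℤ, ModularFormClass.qCoeff E n = (m : ℂ))
    (hE0 : ModularFormClass.qCoeff E 0 = 1 ∨ ModularFormClass.qCoeff E 0 = -1)
    (N : ℕ) [NeZero N] (ε : DirichletCharacter ℂ N) (f : CuspForm (Gamma1 M) 1)
    (hf₁ : ModularFormClass.qCoeff f 1 = 1)
    (hT : ∀ p : ℕ, p.Prime → ¬ p ∣ N → ∀ n : ℕ,
        ModularFormClass.qCoeff f (p * n) +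
            ε (p : ZMod N) * (if p ∣ n then ModularFormClass.qCoeff f (n / p) else 0) =
          ModularFormClass.qCoeff f p * ModularFormClass.qCoeff f n) :
    ∃ K : IntermediateField ℚ ℂ, FiniteDimensional ℚ K ∧
      (∀ n : ℕ, 0 < n → n.Coprime N →
        ∃ x : K, (x : ℂ) = ModularFormClass.qCoeff f n ∧ IsIntegral ℤ x) ∧
      ∀ p : ℕ, ∃ x : K, (x : ℂ) = ε (p : ZMod N) ∧ IsIntegral ℤ x := by
  obtain ⟨ι, _, c, g, hg⟩ := (isIntComb_weight_one hBZ E hEint hE0 f).coeff
  have hefin : (Set.range fun p : ℕ => ε (p : ZMod N)).Finite :=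
    (Set.finite_range (fun x : ZMod N => ε x)).subset (by rintro _ ⟨p, rfl⟩; exact ⟨_, rfl⟩)
  have heint : ∀ p : ℕ, IsIntegral ℤ (ε (p : ZMod N)) := by
    intro p
    by_cases hu : IsUnit ((p : ℕ) : ZMod N)
    · obtain ⟨u, hu'⟩ := hu
      rw [← hu']
      have hcard : 0 < Fintype.card (ZMod N)ˣ := Fintype.card_pos
      refine IsIntegral.of_pow hcard ?_
      have : (ε (u : ZMod N)) ^ Fintype.card (ZMod N)ˣ = 1 := by
        rw [← map_pow, ← Units.val_pow_eq_pow_val, pow_card_eq_one, Units.val_one, map_one]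
      rw [this]
      exact isIntegral_one
    · rw [MulChar.map_nonunit ε hu]
      exact isIntegral_zero
  exact exists_field (N := N) (e := fun p => ε (p : ZMod N))
    (a := fun n => ModularFormClass.qCoeff f n) hf₁ hT (AM_fg hefin heint c g hg)

end Fermat.Agent.S48.A.Conj.Field
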