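import Mathlib
import Fermat.Agent.S48.A.Conj.Core
import Fermat.Agent.S48.A.Conj.Field

/-!
# A3, route E: the number field of a weight one eigensystem with nebentypus, from `Γ₀(N)`

Let `f` be a weight one cusp form on `Γ₁(N)` with odd nebentypus `ε`, and `h = q + …` the normalized
Eisenstein series of weight `3` and nebentypus `ε⁻¹`, whose `q`-expansion has coefficients in
`ℤ[ε]`.  If the `q`-expansion of the cusp form `f * h` on `Γ₀(N)` is a `ℂ`-linear combination of
finitely many integral power series, then the coefficients of `f` lie in a finitely generated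
`ℤ[ε]`-module, and the formal argument of `Integral.lean` gives the number field.
-/
set_option autoImplicit false

open UpperHalfPlane ModularForm CongruenceSubgroup
open scoped Manifold MatrixGroups

namespace Fermat.Agent.S48.A.Conj.CoreField

open Fermat.Agent.S48.A.Conj.Gamma0Lift Fermat.Agent.S48.A.Conj.Eis3.QExp
  Fermat.Agent.S48.A.Conj.Core Fermat.Agent.S48.A.Conj.Field Fermat.Agent.S48.A.Conj.Integral
  Fermat.Agent.S48.A.Conj.Main

open Submodule

section abstract

variable {N : ℕ} {e a : ℕ → ℂ}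

/-- `AM` is finitely generated as soon as `a` is a combination of finitely many sequences with
values in `ℤ[e]` and `e` takes finitely many integral values. -/
theorem AM_fg' (hefin : (Set.range e).Finite) (heint : ∀ p, IsIntegral ℤ (e p))
    {ι : Type*} [Fintype ι] (c : ι → ℂ) (g : ι → ℕ → ℂ) (hg : ∀ i n, g i n ∈ OM e)
    (ha : ∀ n, a n = ∑ i, c i * g i n) : (AM N e a).FG := by
  have hO : (OM e).FG := by
    unfold OM
    refine fg_adjoin_of_finite hefin ?_
    rintro x ⟨p, rfl⟩
    exact heint p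
  have hΛ : (OM e * span ℤ (Set.range c)).FG := hO.mul (fg_span (Set.finite_range c))
  refine FG.of_le hΛ ?_
  have hle : span ℤ (gens N a) ≤ OM e * span ℤ (Set.range c) := by
    rw [span_le]
    rintro x ⟨n, -, -, rfl⟩
    rw [ha n]
    refine sum_mem fun i _ => ?_
    rw [mul_comm (c i) (g i n)]
    exact mul_mem_mul (hg i n) (subset_span (Set.mem_range_self i))
  unfold AM
  calc OM e * span ℤ (gens N a) ≤ OM e * (OM e * span ℤ (Set.range c)) := mul_le_mul' le_rfl hle
    _ = OM e * span ℤ (Set.range c) := by rw [← mul_assoc, OM_mul_OM]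

end abstract


/-- formal division by `X * u`, `u` a power series over the subring `S` with constant term `1` -/
theorem coeff_of_mul_eq (S : Subalgebra ℤ ℂ) (u : PowerSeries S)
    (hu : PowerSeries.constantCoeff u = 1) (a : PowerSeries ℂ) {ι : Type} [Fintype ι] (c : ι → ℂ)
    (G : ι → PowerSeries ℤ)
    (h : a * (PowerSeries.X * PowerSeries.map (S.val : S →+* ℂ) u) =
      ∑ i, c i • PowerSeries.map (Int.castRingHom ℂ) (G i)) :
    ∃ g : ι → ℕ → ℂ, (∀ i n, g i n ∈ S) ∧ ∀ n, PowerSeries.coeff n a = ∑ i, c i * g i n := by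
  have hunit : IsUnit u := by
    rw [PowerSeries.isUnit_iff_constantCoeff, hu]
    exact isUnit_one
  obtain ⟨v, hv⟩ := hunit.exists_right_inv
  set φ : S →+* ℂ := (S.val : S →+* ℂ) with hφ
  let W : ι → PowerSeries S := fun i => PowerSeries.map (algebraMap ℤ S) (G i) * v
  have hcomp : ∀ i, PowerSeries.map φ (PowerSeries.map (algebraMap ℤ S) (G i)) =
      PowerSeries.map (Int.castRingHom ℂ) (G i) := by
    intro i
    ext n
    rw [PowerSeries.coeff_map, PowerSeries.coeff_map, PowerSeries.coeff_map]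
    simp
  have h1 : a * PowerSeries.X = ∑ i, c i • PowerSeries.map φ (W i) := by
    have h2 : a * PowerSeries.X = a * (PowerSeries.X * PowerSeries.map φ u) * PowerSeries.map φ v := by
      rw [mul_assoc, mul_assoc, ← map_mul, hv, map_one, mul_one]
    rw [h2, h, Finset.sum_mul]
    refine Finset.sum_congr rfl fun i _ => ?_
    rw [smul_mul_assoc, map_mul, hcomp]
  refine ⟨fun i n => φ (PowerSeries.coeff (n + 1) (W i)), fun i n => ?_, fun n => ?_⟩
  · exact (PowerSeries.coeff (n + 1) (W i)).2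
  · rw [← PowerSeries.coeff_succ_mul_X, h1, map_sum]
    refine Finset.sum_congr rfl fun i _ => ?_
    rw [PowerSeries.coeff_smul, PowerSeries.coeff_map, smul_eq_mul]


variable {N : ℕ} [NeZero N]

/-- the values of `ε` at the natural numbers -/
noncomputable def epsSeq (ε : DirichletCharacter ℂ N) : ℕ → ℂ := fun p => ε (p : ZMod N)

/-- the ring `ℤ[ε]` -/
noncomputable def epsRing (ε : DirichletCharacter ℂ N) : Subalgebra ℤ ℂ :=
  Algebra.adjoin ℤ (Set.range (epsSeq ε))

theorem eps_mem (ε : DirichletCharacter ℂ N) (x : ZMod N) : ε x ∈ epsRing ε := by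
  refine Algebra.subset_adjoin ⟨x.val, ?_⟩
  unfold epsSeq
  rw [ZMod.natCast_zmod_val]

theorem inv_mem (ε : DirichletCharacter ℂ N) (x : ZMod N) : ε⁻¹ x ∈ epsRing ε := by
  rw [MulChar.inv_apply]
  exact eps_mem ε _

theorem sigmaW_mem (ε : DirichletCharacter ℂ N) (k n : ℕ) :
    sigmaW (chiW ε⁻¹) k n ∈ epsRing ε := by
  unfold sigmaW chiW
  refine Subalgebra.sum_mem _ fun x _ => ?_
  exact Subalgebra.mul_mem _ (inv_mem ε _) (Subalgebra.pow_mem _ (natCast_mem _ _) _)

/-- Hypothesis: the `q`-expansions of cusp forms on `Γ₀(N)` are integral combinations, in all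
weights `≥ 1` -/
def IntComb0 (N : ℕ) : Prop :=
  ∀ (k : ℤ), 1 ≤ k → ∀ F : CuspForm (Gamma0 N) k, IsIntComb (qExpansion 1 F)

/-- **Route E, coefficients (core).** -/
theorem coeff_core (ε : DirichletCharacter ℂ N) (hodd : ε (-1) = -1)
    (f : CuspForm (Gamma1 N) 1) (hneb : HasNeb ε (k := 1) ⇑f) (hint : IntComb0 N) :
    ∃ (ι : Type) (_ : Fintype ι) (c : ι → ℂ) (g : ι → ℕ → ℂ),
      (∀ i n, g i n ∈ epsRing ε) ∧
      ∀ n, PowerSeries.coeff n (qExpansion 1 f) = ∑ i, c i * g i n := by
  obtain ⟨ι, _, c, G, hG⟩ := hint _ (by norm_num) (prodForm ε f hneb)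
  rw [qExpansion_prodForm] at hG
  let u : PowerSeries (epsRing ε) :=
    PowerSeries.mk fun n => ⟨sigmaW (chiW ε⁻¹) (3 - 1) (n + 1), sigmaW_mem ε _ _⟩
  have hu : PowerSeries.constantCoeff u = 1 := by
    rw [← PowerSeries.coeff_zero_eq_constantCoeff_apply, PowerSeries.coeff_mk]
    apply Subtype.ext
    show sigmaW (chiW ε⁻¹) (3 - 1) (0 + 1) = 1
    rw [zero_add, sigmaW_one, chiW_one]
  have hXu : qExpansion 1 (aux ε) =
      PowerSeries.X * PowerSeries.map ((epsRing ε).val : epsRing ε →+* ℂ) u := by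
    have h1 : qExpansion 1 (aux ε) = PowerSeries.mk (sigmaW (chiW ε⁻¹) (3 - 1)) :=
      qExpansion_eisNorm ε⁻¹ (odd_inv ε hodd) (le_refl 3) (by decide)
    rw [h1]
    ext n
    rcases n with _ | n
    · rw [PowerSeries.coeff_zero_X_mul, PowerSeries.coeff_mk, sigmaW_zero]
    · rw [PowerSeries.coeff_succ_X_mul, PowerSeries.coeff_mk, PowerSeries.coeff_map,
        PowerSeries.coeff_mk]
      rfl
  rw [hXu] at hG
  obtain ⟨g, hg, hag⟩ := coeff_of_mul_eq (epsRing ε) u hu (qExpansion 1 f) c G hG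
  exact ⟨ι, inferInstance, c, g, hg, hag⟩


theorem epsSeq_finite (ε : DirichletCharacter ℂ N) : (Set.range (epsSeq ε)).Finite :=
  (Set.finite_range (fun x : ZMod N => ε x)).subset (by rintro _ ⟨p, rfl⟩; exact ⟨_, rfl⟩)

theorem epsSeq_isIntegral (ε : DirichletCharacter ℂ N) (p : ℕ) : IsIntegral ℤ (epsSeq ε p) := by
  unfold epsSeq
  by_cases hu : IsUnit ((p : ℕ) : ZMod N)
  · obtain ⟨u, hu'⟩ := hu
    rw [← hu']
    have hcard : 0 < Fintype.card (ZMod N)ˣ := Fintype.card_pos
    refine IsIntegral.of_pow hcard ?_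
    have : (ε (u : ZMod N)) ^ Fintype.card (ZMod N)ˣ = 1 := by
      rw [← map_pow, ← Units.val_pow_eq_pow_val, pow_card_eq_one, Units.val_one, map_one]
    rw [this]
    exact isIntegral_one
  · rw [MulChar.map_nonunit ε hu]
    exact isIntegral_zero

/-- **Route E, the number field (core).** -/
theorem exists_field_core (ε : DirichletCharacter ℂ N) (hodd : ε (-1) = -1)
    (f : CuspForm (Gamma1 N) 1) (hneb : HasNeb ε (k := 1) ⇑f) (hint : IntComb0 N)
    (hf₁ : ModularFormClass.qCoeff f 1 = 1)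
    (hT : ∀ p : ℕ, p.Prime → ¬ p ∣ N → ∀ n : ℕ,
        ModularFormClass.qCoeff f (p * n) +
            ε (p : ZMod N) * (if p ∣ n then ModularFormClass.qCoeff f (n / p) else 0) =
          ModularFormClass.qCoeff f p * ModularFormClass.qCoeff f n) :
    ∃ K : IntermediateField ℚ ℂ, FiniteDimensional ℚ K ∧
      (∀ n : ℕ, 0 < n → n.Coprime N →
        ∃ x : K, (x : ℂ) = ModularFormClass.qCoeff f n ∧ IsIntegral ℤ x) ∧
      ∀ p : ℕ, ∃ x : K, (x : ℂ) = ε (p : ZMod N) ∧ IsIntegral ℤ x := by
  obtain ⟨ι, _, c, g, hg, hag⟩ := coeff_core ε hodd f hneb hint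
  have hfg : (AM N (epsSeq ε) (fun n => ModularFormClass.qCoeff f n)).FG :=
    AM_fg' (epsSeq_finite ε) (epsSeq_isIntegral ε) c g (fun i n => hg i n)
      (fun n => by rw [qCoeff_def]; exact hag n)
  exact exists_field (N := N) (e := epsSeq ε)
    (a := fun n => ModularFormClass.qCoeff f n) hf₁ hT hfg

end Fermat.Agent.S48.A.Conj.CoreField
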