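import Mathlib
import Fermat.Prelude.Def_FLTPrelim_Modularity
import Fermat.Prelude.Def_CuspForm_IntegralStructure
import Fermat.Prelude.Thm_CongruenceSubgroup_one_mem_strictPeriods_Gamma0
import Fermat.Agent.S23.Assembly
import Fermat.Agent.S23.ThetaE12
import Fermat.Agent.S48.A.Conj.Field

/-!
# A3, route E: what main's S23 gives for `Γ₀(N)` in every weight `k ≥ 1`

main's S23 machinery proves `CuspForm.HasIntegralStructure N k` for EVERY weight `k ≥ 1`
(`Fermat.Agent.S23.Assembly.hasIntegralStructure_of_theta` with `θ = ThetaE12.theta N`), not only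
the frozen statement `k = 2`.  Consequences, in the idiom of `Conj/Field.lean`:

* `hasIntegralStructure` : the integral structure in weight `k ≥ 1`;
* `span_intSet_eq_top` : `S_k(Γ₀(N))` is the `ℂ`-span of the forms with integral `q`-expansion;
* `isIntComb_Gamma0` : the `q`-expansion of every `F ∈ S_k(Γ₀(N))` is an integral combination;
* `stable_Gamma0` : every ring homomorphism `σ : ℂ →+* ℂ` acts on `S_k(Γ₀(N))` through the
  `q`-expansion coefficients; `stable_qExpansion` : the same in the power series form.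
-/

set_option autoImplicit false

open UpperHalfPlane ModularForm CongruenceSubgroup
open scoped Manifold MatrixGroups

namespace Fermat.Agent.S48.A.Conj.FromMain

open Fermat.Agent.S48.A.Conj.Field

variable (N : ℕ) {k : ℤ}

/-- The cusp forms of weight `k` on `Γ₀(N)` with integral `q`-expansion. -/
def intSet0 (N : ℕ) (k : ℤ) : Set (CuspForm (Gamma0 N) k) :=
  {h | ∀ n : ℕ, ∃ m : ℤ, ModularFormClass.qCoeff h n = (m : ℂ)}

/-- **main's S23 in every weight** `k ≥ 1`. -/
theorem hasIntegralStructure [NeZero N] (hk : 1 ≤ k) : CuspForm.HasIntegralStructure N k :=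
  Fermat.Agent.S23.Assembly.hasIntegralStructure_of_theta (Fermat.Agent.S23.ThetaE12.theta N)
    (Fermat.Agent.S23.ThetaE12.theta_qExpansion_rat N)
    (fun γ hγ => Fermat.Agent.S23.ThetaE12.theta_slash_ne N γ hγ) hk

/-- `S_k(Γ₀(N))` is spanned over `ℂ` by the forms with integral `q`-expansion. -/
theorem span_intSet_eq_top [NeZero N] (hk : 1 ≤ k) : Submodule.span ℂ (intSet0 N k) = ⊤ := by
  have h := hasIntegralStructure N hk
  unfold CuspForm.HasIntegralStructure CuspForm.intLattice at h
  rw [Submodule.span_span_of_tower] at h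
  exact h

section linear

theorem qCoeff_add (f g : CuspForm (Gamma0 N) k) (n : ℕ) :
    ModularFormClass.qCoeff (⇑(f + g)) n =
      ModularFormClass.qCoeff f n + ModularFormClass.qCoeff g n := by
  unfold ModularFormClass.qCoeff
  rw [FunLike.coe_add,
    ModularForm.qExpansion_add one_pos (CongruenceSubgroup.one_mem_strictPeriods_Gamma0 N) f g,
    map_add]

theorem qCoeff_smul (c : ℂ) (f : CuspForm (Gamma0 N) k) (n : ℕ) :
    ModularFormClass.qCoeff (⇑(c • f)) n = c * ModularFormClass.qCoeff f n := by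
  unfold ModularFormClass.qCoeff
  rw [FunLike.coe_smul,
    ModularForm.qExpansion_smul one_pos (CongruenceSubgroup.one_mem_strictPeriods_Gamma0 N) c f,
    PowerSeries.coeff_smul, smul_eq_mul]

theorem qCoeff_zero (n : ℕ) :
    ModularFormClass.qCoeff (⇑(0 : CuspForm (Gamma0 N) k)) n = 0 := by
  unfold ModularFormClass.qCoeff
  rw [FunLike.coe_zero, qExpansion_zero, map_zero]

end linear

/-- Every cusp form of weight `k ≥ 1` on `Γ₀(N)` has an integral-combination `q`-expansion. -/
theorem isIntComb_Gamma0 [NeZero N] (hk : 1 ≤ k) (F : CuspForm (Gamma0 N) k) :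
    IsIntComb (qExpansion 1 F) := by
  have hF : F ∈ Submodule.span ℂ (intSet0 N k) := by rw [span_intSet_eq_top N hk]; trivial
  have hΓ := CongruenceSubgroup.one_mem_strictPeriods_Gamma0 N
  induction hF using Submodule.span_induction with
  | mem F hF =>
    obtain ⟨u, hu⟩ := exists_int_lift (φ := qExpansion 1 F) hF
    refine ⟨PUnit, inferInstance, fun _ => 1, fun _ => u, ?_⟩
    simp [hu]
  | zero =>
    have : qExpansion 1 (⇑(0 : CuspForm (Gamma0 N) k)) = 0 := qExpansion_zero 1
    rw [this]
    exact isIntComb_zero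
  | add F F' _ _ hF hF' =>
    have : qExpansion 1 (⇑(F + F')) = qExpansion 1 F + qExpansion 1 F' :=
      ModularForm.qExpansion_add one_pos hΓ F F'
    rw [this]
    exact hF.add hF'
  | smul z F _ hF =>
    have : qExpansion 1 (⇑(z • F)) = z • qExpansion 1 F :=
      ModularForm.qExpansion_smul one_pos hΓ z F
    rw [this]
    exact hF.smul z

/-- Every ring homomorphism `σ : ℂ →+* ℂ` acts on `S_k(Γ₀(N))`, `k ≥ 1`, through the
`q`-expansion coefficients. -/
theorem stable_Gamma0 [NeZero N] (hk : 1 ≤ k) (σ : ℂ →+* ℂ) (F : CuspForm (Gamma0 N) k) :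
    ∃ F' : CuspForm (Gamma0 N) k,
      ∀ n : ℕ, ModularFormClass.qCoeff F' n = σ (ModularFormClass.qCoeff F n) := by
  have hF : F ∈ Submodule.span ℂ (intSet0 N k) := by rw [span_intSet_eq_top N hk]; trivial
  induction hF using Submodule.span_induction with
  | mem x hx =>
    refine ⟨x, fun n => ?_⟩
    obtain ⟨m, hm⟩ := hx n
    rw [hm, map_intCast]
  | zero =>
    refine ⟨0, fun n => ?_⟩
    rw [qCoeff_zero, map_zero]
  | add x y _ _ hx hy =>
    obtain ⟨x', hx'⟩ := hx
    obtain ⟨y', hy'⟩ := hy
    refine ⟨x' + y', fun n => ?_⟩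
    rw [qCoeff_add, qCoeff_add, map_add, hx', hy']
  | smul c x _ hx =>
    obtain ⟨x', hx'⟩ := hx
    refine ⟨σ c • x', fun n => ?_⟩
    rw [qCoeff_smul, qCoeff_smul, map_mul, hx']

/-- The same in the power series form (the literal `Core.Stable0 N σ` of `Conj/Core.lean`,
unfolded: `fun k hk F => stable_qExpansion N hk σ F`). -/
theorem stable_qExpansion [NeZero N] (hk : 1 ≤ k) (σ : ℂ →+* ℂ) (F : CuspForm (Gamma0 N) k) :
    ∃ F' : CuspForm (Gamma0 N) k, qExpansion 1 F' = PowerSeries.map σ (qExpansion 1 F) := by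
  obtain ⟨F', hF'⟩ := stable_Gamma0 N hk σ F
  refine ⟨F', ?_⟩
  ext n
  rw [PowerSeries.coeff_map]
  exact hF' n

end Fermat.Agent.S48.A.Conj.FromMain
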