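import Mathlib
import Fermat.Agent.S48.A.Neb.Main
import Fermat.Agent.S48.A.Conj.FromMain
import Fermat.Agent.S48.A.Conj.CoreField

/-!
# A3, route E: conjugates and number field of a weight one Hecke eigensystem, hypothesis-free

Let `f` be a weight one cusp form on `Γ₁(N)` whose `q`-coefficients satisfy the Hecke relations of
S48 with a Dirichlet character `ε` at all primes `p ∤ N`.  Then

* for every ring endomorphism `σ` of `ℂ` there is a weight one cusp form on `Γ₁(N)` (same level)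
  with `q`-coefficients `σ (a_n)`;
* if moreover `a_1 = 1`, the `a_n` (`n` prime to `N`) and the values of `ε` are algebraic integers
  of one number field `K ⊆ ℂ`.

The only inputs are helper23's nebentypus theorem (A1b) and main's S23 machinery for `Γ₀(N)`
(through helper6's `Conj/FromMain.lean`).
-/

set_option autoImplicit false

open UpperHalfPlane ModularForm CongruenceSubgroup
open scoped Manifold MatrixGroups

namespace Fermat.Agent.S48.A.Conj.Final

open Fermat.Agent.S48.A.Conj.Main Fermat.Agent.S48.A.Conj.Core Fermat.Agent.S48.A.Conj.CoreField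
  Fermat.Agent.S48.A.Conj.Gamma0Lift

/-- the `q`-expansions of cusp forms on `Γ₀(N)` are stable under every ring endomorphism of `ℂ` -/
theorem stable0 (N : ℕ) [NeZero N] (σ : ℂ →+* ℂ) : Stable0 N σ :=
  fun _ hk F => Fermat.Agent.S48.A.Conj.FromMain.stable_qExpansion N hk σ F

/-- the `q`-expansions of cusp forms on `Γ₀(N)` are integral combinations -/
theorem intComb0 (N : ℕ) [NeZero N] : IntComb0 N :=
  fun _ hk F => Fermat.Agent.S48.A.Conj.FromMain.isIntComb_Gamma0 N hk F

/-- **Route E, conjugates.**  A weight one cusp form on `Γ₁(N)` with odd nebentypus has all its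
conjugates at the same level. -/
theorem exists_conj_neb {N : ℕ} [NeZero N] (ε : DirichletCharacter ℂ N) (hodd : ε (-1) = -1)
    (f : CuspForm (Gamma1 N) 1) (hneb : HasNeb ε (k := 1) ⇑f) (σ : ℂ →+* ℂ) :
    ∃ f' : CuspForm (Gamma1 N) 1,
      ∀ n, ModularFormClass.qCoeff f' n = σ (ModularFormClass.qCoeff f n) := by
  obtain ⟨f', hf'⟩ := exists_conj_core ε hodd f hneb σ (stable0 N σ)
  refine ⟨f', fun n => ?_⟩
  have := congrArg (PowerSeries.coeff n) hf'
  rw [PowerSeries.coeff_map] at this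
  exact this

/-- **Route E, the number field.** -/
theorem exists_field_neb {N : ℕ} [NeZero N] (ε : DirichletCharacter ℂ N) (hodd : ε (-1) = -1)
    (f : CuspForm (Gamma1 N) 1) (hneb : HasNeb ε (k := 1) ⇑f)
    (hf₁ : ModularFormClass.qCoeff f 1 = 1)
    (hT : ∀ p : ℕ, p.Prime → ¬ p ∣ N → ∀ n : ℕ,
        ModularFormClass.qCoeff f (p * n) +
            ε (p : ZMod N) * (if p ∣ n then ModularFormClass.qCoeff f (n / p) else 0) =
          ModularFormClass.qCoeff f p * ModularFormClass.qCoeff f n) :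
    ∃ K : IntermediateField ℚ ℂ, FiniteDimensional ℚ K ∧
      (∀ n : ℕ, 0 < n → n.Coprime N →
        ∃ x : K, (x : ℂ) = ModularFormClass.qCoeff f n ∧ IsIntegral ℤ x) ∧
      ∀ p : ℕ, ∃ x : K, (x : ℂ) = ε (p : ZMod N) ∧ IsIntegral ℤ x :=
  exists_field_core ε hodd f hneb (intComb0 N) hf₁ hT

theorem qCoeff_zero_cuspForm (N : ℕ) (n : ℕ) :
    ModularFormClass.qCoeff (⇑(0 : CuspForm (Gamma1 N) 1)) n = 0 := by
  rw [qCoeff_def]
  have : qExpansion 1 (⇑(0 : CuspForm (Gamma1 N) 1)) = 0 := qExpansion_zero 1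
  rw [this, map_zero]

/-- **A3 (P1'), conjugates at the same level.** -/
theorem exists_conj (N : ℕ) [NeZero N] (ε : DirichletCharacter ℂ N) (f : CuspForm (Gamma1 N) 1)
    (hT : ∀ p : ℕ, p.Prime → ¬ p ∣ N → ∀ n : ℕ,
        ModularFormClass.qCoeff f (p * n) +
            ε (p : ZMod N) * (if p ∣ n then ModularFormClass.qCoeff f (n / p) else 0) =
          ModularFormClass.qCoeff f p * ModularFormClass.qCoeff f n)
    (σ : ℂ →+* ℂ) :
    ∃ f' : CuspForm (Gamma1 N) 1,
      ∀ n, ModularFormClass.qCoeff f' n = σ (ModularFormClass.qCoeff f n) := by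
  by_cases hf : f = 0
  · refine ⟨0, fun n => ?_⟩
    rw [hf, qCoeff_zero_cuspForm, map_zero]
  · exact exists_conj_neb ε (Fermat.Agent.S48.A.Neb.eps_neg_one ε f hT hf) f
      (fun γ hγ => Fermat.Agent.S48.A.Neb.slash_eq_eps_smul ε f hT γ hγ) σ

/-- the same for field automorphisms, in the shape of `Defs.HasConjugates f N` -/
theorem hasConjugates (N : ℕ) [NeZero N] (ε : DirichletCharacter ℂ N) (f : CuspForm (Gamma1 N) 1)
    (hT : ∀ p : ℕ, p.Prime → ¬ p ∣ N → ∀ n : ℕ,
        ModularFormClass.qCoeff f (p * n) +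
            ε (p : ZMod N) * (if p ∣ n then ModularFormClass.qCoeff f (n / p) else 0) =
          ModularFormClass.qCoeff f p * ModularFormClass.qCoeff f n) :
    ∀ σ : ℂ ≃+* ℂ, ∃ g : CuspForm (Gamma1 N) 1,
      ∀ n : ℕ, ModularFormClass.qCoeff g n = σ (ModularFormClass.qCoeff f n) :=
  fun σ => exists_conj N ε f hT (σ : ℂ →+* ℂ)

/-- **A3 (P2'), the number field.** -/
theorem exists_field (N : ℕ) [NeZero N] (ε : DirichletCharacter ℂ N) (f : CuspForm (Gamma1 N) 1)
    (hf₁ : ModularFormClass.qCoeff f 1 = 1)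
    (hT : ∀ p : ℕ, p.Prime → ¬ p ∣ N → ∀ n : ℕ,
        ModularFormClass.qCoeff f (p * n) +
            ε (p : ZMod N) * (if p ∣ n then ModularFormClass.qCoeff f (n / p) else 0) =
          ModularFormClass.qCoeff f p * ModularFormClass.qCoeff f n) :
    ∃ K : IntermediateField ℚ ℂ, FiniteDimensional ℚ K ∧
      (∀ n : ℕ, 0 < n → n.Coprime N →
        ∃ x : K, (x : ℂ) = ModularFormClass.qCoeff f n ∧ IsIntegral ℤ x) ∧
      ∀ p : ℕ, ∃ x : K, (x : ℂ) = ε (p : ZMod N) ∧ IsIntegral ℤ x := by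
  have hf : f ≠ 0 := by
    intro h0
    rw [h0, qCoeff_zero_cuspForm] at hf₁
    exact zero_ne_one hf₁
  exact exists_field_neb ε (Fermat.Agent.S48.A.Neb.eps_neg_one ε f hT hf) f
    (fun γ hγ => Fermat.Agent.S48.A.Neb.slash_eq_eps_smul ε f hT γ hγ) hf₁ hT

end Fermat.Agent.S48.A.Conj.Final
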